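import Fermat.Agent.S36.Val.Inst.Setup
import Fermat.Agent.S28.Bridge
import Fermat.Agent.ES.B.Red
import Fermat.Agent.Crux.G.TwoCharts

/-!
# S36 / Mod / Inst / Insep : the field `QData.insep` for the modular instance `IData.setup`

INPUT: a Frobenius lift `(τK, τA)` on `(K, A0)` (`Base.exists_frobLift` for `A0 = Base.A0 A`, `K = Base.L0 A`) and a chart coordinate `t` whose
`q`-expansion is fixed by `τK` (e.g. `castS K th` or its inverse).  Then `g' := τK(g)` (coefficientwise) is integral over `A0[t]`, and its residue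
`c' = Frob(c)` (coefficientwise) satisfies `V c' = c^l`.
-/

set_option autoImplicit false
set_option linter.unusedSectionVars false

open ModularCurve Polynomial

namespace Fermat.Agent.S36.Mod.Inst

open Fermat.Agent.ES Fermat.Agent.S24 Fermat.Agent.Crux.GT.PF Fermat.Agent.Crux.G
open Fermat.Agent.S36.Val Fermat.Agent.S36.Val.Inst

noncomputable section

/-- coefficientwise action of `τK : K → K` on `F_K(N)`. -/
def tauF {K : Type} [Field K] (τK : K →+* K) (N : ℕ) [NeZero N] : FK K N →+* FK K N where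
  toFun g := ⟨coeffMap τK (g : LaurentSeries K), Fermat.Agent.S28.coeffMap_mem_full τK N g.2⟩
  map_one' := Subtype.ext (map_one (coeffMap τK))
  map_mul' _ _ := Subtype.ext (map_mul (coeffMap τK) _ _)
  map_zero' := Subtype.ext (map_zero (coeffMap τK))
  map_add' _ _ := Subtype.ext (map_add (coeffMap τK) _ _)

theorem coe_tauF {K : Type} [Field K] (τK : K →+* K) (N : ℕ) [NeZero N] (g : FK K N) :
    ((tauF τK N g : FK K N) : LaurentSeries K) = coeffMap τK (g : LaurentSeries K) := rfl

/-- a semilinear ring endomorphism fixing `t` preserves integrality over `A[t]`. -/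
theorem intX_semilinear {A E F : Type*} [CommRing A] [Field E] [Field F] [Algebra A E] [Algebra E F]
    [Algebra A F] [IsScalarTower A E F] (φ : F →+* F) (τA : A →+* A)
    (hφA : ∀ a : A, φ (algebraMap A F a) = algebraMap A F (τA a)) {t : E}
    (hφt : φ (algebraMap E F t) = algebraMap E F t) {g : F} (hg : IntX A t g) :
    IntX A t (φ g) := by
  rw [intX_iff] at hg ⊢
  obtain ⟨p, hp, hroot⟩ := hg
  refine ⟨p.map (mapRingHom τA), hp.map _, ?_⟩
  have hcomp : φ.comp ((algebraMap E F).comp ((aeval t : A[X] →ₐ[A] E) : A[X] →+* E)) =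
      ((algebraMap E F).comp ((aeval t : A[X] →ₐ[A] E) : A[X] →+* E)).comp (mapRingHom τA) := by
    apply Polynomial.ringHom_ext
    · intro a
      simp [← IsScalarTower.algebraMap_apply, hφA]
    · simp [hφt]
  have := congrArg φ hroot
  rw [Polynomial.hom_eval₂, hcomp, map_zero] at this
  rw [Polynomial.eval₂_map]
  exact this

variable {N l : ℕ} [NeZero N] [NeZero l] {A0 K k : Type} [CommRing A0] [IsDomain A0]
    [IsDiscreteValuationRing A0] [Field K] [Algebra A0 K] [IsFractionRing A0 K] [Algebra K Kb]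
    [Field k] (D : IData N l A0 K k)

include D in
theorem charP_k : CharP k l := by
  refine (CharP.charP_iff_prime_eq_zero D.hl).mpr ?_
  rw [← map_natCast D.r]
  by_contra h
  obtain ⟨b, hb⟩ := D.hr (D.r (l : A0))⁻¹
  have h1 : D.r ((l : A0) * b - 1) = 0 := by
    rw [map_sub, map_mul, hb, mul_inv_cancel₀ h, map_one, sub_self]
  have h2 : ¬ IsUnit ((l : A0) * b - 1) := by
    intro hu
    exact (hu.map D.r).ne_zero h1
  have h3 : (l : A0) * b ∈ IsLocalRing.maximalIdeal A0 :=
    Ideal.mul_mem_right _ _ ((IsLocalRing.mem_maximalIdeal _).mpr D.hπ.not_isUnit)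
  have h4 : (l : A0) * b - 1 ∈ IsLocalRing.maximalIdeal A0 := (IsLocalRing.mem_maximalIdeal _).mpr h2
  have h5 : (1 : A0) ∈ IsLocalRing.maximalIdeal A0 := by
    have := Ideal.sub_mem _ h3 h4
    simpa using this
  exact (Ideal.ne_top_iff_one _).mp (IsLocalRing.maximalIdeal.isMaximal A0).ne_top h5

/-- residues under the Frobenius lift. -/
theorem res_tauF (τK : K →+* K) (τA : A0 →+* A0)
    (h1 : ∀ a, τK (algebraMap A0 K a) = algebraMap A0 K (τA a)) (φk : k →+* k)
    (h2 : ∀ a, D.r (τA a) = φk (D.r a)) (g : FK K N) (c : LaurentSeries k)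
    (hc : D.setup.R.Res g c) : D.setup.R.Res (tauF τK N g) (coeffMap φk c) := by
  obtain ⟨g1, d1, hd, e1, e2⟩ := hc
  have hinj : Function.Injective (coeffMap (algebraMap K Kb)) :=
    Fermat.Agent.Crux.coeffMap_injective _ (algebraMap K Kb).injective
  have hinc : ∀ x : LaurentSeries A0, D.setup.inc x
      = coeffMap (algebraMap K Kb) (coeffMap (algebraMap A0 K) x) := by
    intro x
    show coeffMap (IData.φ0 A0 K) x = _
    rw [coeffMap_coeffMap]
    rfl
  have hΦ : ∀ f : FK K N, D.setup.Φ' f = coeffMap (algebraMap K Kb) (f : LaurentSeries K) :=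
    fun f => rfl
  have hred : ∀ x : LaurentSeries A0, D.setup.red (coeffMap τA x) = coeffMap φk (D.setup.red x) := by
    intro x
    show coeffMap D.r (coeffMap τA x) = coeffMap φk (coeffMap D.r x)
    rw [coeffMap_coeffMap, coeffMap_coeffMap]
    exact coeffMap_congr (RingHom.ext fun a => h2 a) x
  have hτ : ∀ x : LaurentSeries A0, coeffMap τK (coeffMap (algebraMap A0 K) x)
      = coeffMap (algebraMap A0 K) (coeffMap τA x) := by
    intro x
    rw [coeffMap_coeffMap, coeffMap_coeffMap]
    exact coeffMap_congr (RingHom.ext fun a => h1 a) x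
  rw [hΦ, hinc, hinc, ← map_mul] at e1
  have e1' := hinj e1
  refine ⟨coeffMap τA g1, coeffMap τA d1, ?_, ?_, ?_⟩
  · rw [hred]
    intro h0
    apply hd
    have hφ : Function.Injective (coeffMap φk) :=
      Fermat.Agent.Crux.coeffMap_injective _ φk.injective
    exact hφ (by rw [h0, map_zero])
  · rw [hΦ, hinc, hinc, ← map_mul, coe_tauF, ← hτ, ← hτ, ← map_mul, e1']
  · rw [hred, hred, ← map_mul, e2]

variable {E : Type*} [Field E] [Algebra A0 E] [Algebra E (FK K N)] [Algebra A0 (FK K N)]
  [IsScalarTower A0 E (FK K N)]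

/-- **`QData.insep` for the modular instance.** -/
theorem insep (τK : K →+* K) (τA : A0 →+* A0)
    (h1 : ∀ a, τK (algebraMap A0 K a) = algebraMap A0 K (τA a))
    (h2 : ∀ a, D.r (τA a) = D.r a ^ l)
    (hA : ∀ a : A0, algebraMap A0 (FK K N) a = algebraMap K (FK K N) (algebraMap A0 K a))
    (t : E)
    (ht : coeffMap τK ((algebraMap E (FK K N) t : FK K N) : LaurentSeries K)
      = ((algebraMap E (FK K N) t : FK K N) : LaurentSeries K)) :
    ∀ g : FK K N, IntX A0 t g → ∀ c, D.setup.R.Res g c →
      ∃ g' : FK K N, IntX A0 t g' ∧ ∃ c', D.setup.R.Res g' c' ∧ D.setup.Vκ c' = c ^ l := by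
  intro g hg c hc
  have : Fact l.Prime := ⟨D.hl⟩
  have := charP_k D
  refine ⟨tauF τK N g, ?_, coeffMap (frobenius k l) c, ?_, ?_⟩
  · refine intX_semilinear (tauF τK N) τA (fun a => ?_) (Subtype.ext ht) hg
    rw [hA, hA, ← h1]
    apply Subtype.ext
    rw [coe_tauF]
    show coeffMap τK (algebraMap K (LaurentSeries K) (algebraMap A0 K a))
      = algebraMap K (LaurentSeries K) (τK (algebraMap A0 K a))
    rw [algebraMap_laurentSeries_eq_single, algebraMap_laurentSeries_eq_single, coeffMap_single]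
  · exact res_tauF D τK τA h1 (frobenius k l) (fun a => by rw [h2, frobenius_def]) g c hc
  · exact (pow_char_eq l c).symm

end

end Fermat.Agent.S36.Mod.Inst
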