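import Fermat.Agent.S36.Mod.Inst.Frame
import Fermat.Agent.S36.Val.Inst.Final2

/-!
# S36 / Mod / Inst / FrameK : the "trivial" fields of `QData` for `D.setup` in the concrete frame `E = EK K xh`

`D : IData N l A0 K k`, `xh : ℤ((q))` with `[HasX K xh N] [HasX K xh (N*l)] [HasX K xh (N*l*l)]`,
`attribute [local instance] algEF algAE algAF`.

* `hAK`, `a0_E`, `al_E`, `cst_π`, `b0_A`, `be_A`, `w1_A`, `w2_A`, `w1_t`, `w2_t`, `hchar`, `inV_A` (any chart `t`);
* `Φ'_E`, `Φ'_x`, `Φ'_inv`, `res_x`, `res_inv`, `res_aeval`, `res_s_of`, `res_t_of`;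
* `qdata_of` : `QData` of a chart `t` from the hard fields only;
* the inverse series `yh` of `xh`, the order facts for `noInvK_of_qdata`.
-/

set_option autoImplicit false
set_option linter.unusedSectionVars false
set_option linter.style.haveILetI false

open Polynomial ModularCurve
open scoped IntermediateField

namespace Fermat.Agent.S36.Mod.Inst

open Fermat.Agent.Crux.G Fermat.Agent.Crux.G.QLink
open Fermat.Agent.Crux.GM (castS GoodCoord)
open Fermat.Agent.ES Fermat.Agent.SS Fermat.Agent.S24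
open Fermat.Agent.Crux.GT.PF
open Fermat.Agent.S36.Norm.KForm (dgK)
open Fermat.Agent.S36.Val Fermat.Agent.S36.Val.Inst

attribute [local instance] algEF algAE algAF

noncomputable section

variable {N l : ℕ} [NeZero N] [NeZero l] {A0 K k : Type} [CommRing A0] [IsDomain A0]
    [IsDiscreteValuationRing A0] [Field K] [Algebra A0 K] [IsFractionRing A0 K] [Algebra K Kb]
    [Field k] (D : IData N l A0 K k) (xh : LaurentSeries ℤ)

/-! ### the base ring -/

theorem hAK (M : ℕ) [NeZero M] (a : A0) :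
    algebraMap K (FK K M) (algebraMap A0 K a) = algebraMap A0 (FK K M) a := rfl

theorem cst_π : D.setup.cst D.setup.π = algebraMap A0 (FK K N) (l : A0) := by
  rw [← hAK, map_natCast]
  rfl

theorem b0_A (a : A0) :
    IData.b0 (l := l) (algebraMap A0 (FK K N) a) = algebraMap A0 (FK K (N * l)) a :=
  (dgK K N (N * l) l (IData.dvdl N l)).commutes _

theorem be_A (a : A0) :
    D.setup.be (algebraMap A0 (FK K (N * l)) a) = algebraMap A0 (FK K (N * l * l)) a :=
  (dgK K (N * l) (N * l * l) l (IData.dvdl (N * l) l)).commutes _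

theorem w1_A (a : A0) :
    D.w1K (algebraMap A0 (FK K (N * l)) a) = algebraMap A0 (FK K (N * l)) a :=
  D.w1K_cst _

theorem w2_A (a : A0) :
    D.w2K (algebraMap A0 (FK K (N * l * l)) a) = algebraMap A0 (FK K (N * l * l)) a :=
  D.w2K_cst _

theorem inV_A (a : A0) : InV D.setup.inc D.setup.red (D.setup.Φ' (algebraMap A0 (FK K N) a)) :=
  IsRes.inV (D.res_A (hAK N) a)

include D in
theorem charZero_A0 : CharZero A0 := by
  haveI : CharZero K := (algebraMap K Kb).charZero
  exact (algebraMap A0 K).charZero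

include D in
theorem hchar (n : ℕ) (hn : n ≠ 0) : ∃ (j : ℕ) (u : A0), (n : A0) * u = (l : A0) ^ j := by
  haveI := charZero_A0 D
  have hn' : (n : A0) ≠ 0 := Nat.cast_ne_zero.2 hn
  obtain ⟨j, u, hu⟩ := IsDiscreteValuationRing.eq_unit_mul_pow_irreducible hn' D.hπ
  refine ⟨j, ((u⁻¹ : A0ˣ) : A0), ?_⟩
  rw [hu, mul_comm, ← mul_assoc, Units.inv_mul, one_mul]

/-- the kernel of `r`. -/
theorem dvd_of_r_eq_zero {a : A0} (ha : D.r a = 0) : (l : A0) ∣ a := by
  have h1 : (RingHom.ker D.r).IsMaximal := RingHom.ker_isMaximal_of_surjective D.r D.hr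
  have h2 : RingHom.ker D.r = IsLocalRing.maximalIdeal A0 := IsLocalRing.eq_maximalIdeal h1
  have h3 : a ∈ IsLocalRing.maximalIdeal A0 := by rw [← h2]; exact ha
  rw [D.hπ.maximalIdeal_eq, Ideal.mem_span_singleton] at h3
  exact h3

/-! ### the field `E` -/

variable [HasX K xh N] [HasX K xh (N * l)] [HasX K xh (N * l * l)]

theorem a0_E (c : EK K xh) :
    D.setup.a0 (algebraMap (EK K xh) (FK K N) c) = algebraMap (EK K xh) (FK K (N * l)) c :=
  dgK_algebraMap_EF K xh (IData.dvd1 N l) c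

theorem al_E (c : EK K xh) :
    D.setup.al (algebraMap (EK K xh) (FK K (N * l)) c)
      = algebraMap (EK K xh) (FK K (N * l * l)) c :=
  dgK_algebraMap_EF K xh (IData.dvd1 (N * l) l) c

theorem w1_t (t : EK K xh) :
    D.w1K (algebraMap (EK K xh) (FK K (N * l)) t) = IData.b0 (algebraMap (EK K xh) (FK K N) t) := by
  rw [← a0_E D xh]
  exact D.w1K_a0 _

theorem w2_t (t : EK K xh) :
    D.w2K (algebraMap (EK K xh) (FK K (N * l * l)) t)
      = D.setup.be (IData.b0 (algebraMap (EK K xh) (FK K N) t)) := by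
  rw [← al_E D xh, ← w1_t D xh]
  exact D.w2K_al _

/-! ### expansions and residues -/

omit [HasX K xh (N * l)] [HasX K xh (N * l * l)] in
theorem Φ'_E (c : EK K xh) :
    IData.Φ' (algebraMap (EK K xh) (FK K N) c) = coeffMap (algebraMap K Kb) (c : LaurentSeries K) := by
  show ((beta K N (algebraMap (EK K xh) (FK K N) c) : FF N) : LaurentSeries Qb) = _
  rw [beta_coe, coe_algebraMap_EF]

omit [HasX K xh (N * l)] [HasX K xh (N * l * l)] in
theorem Φ'_x : IData.Φ' (algebraMap (EK K xh) (FK K N) (xE K xh))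
    = IData.inc (A0 := A0) (K := K) (castS A0 xh) := by
  rw [Φ'_E, coe_xE, Fermat.Agent.Crux.GM.coeffMap_castS]
  exact (Fermat.Agent.Crux.GM.coeffMap_castS (IData.φ0 A0 K) xh).symm

theorem red_castS (zh : LaurentSeries ℤ) : D.red (castS A0 zh) = castS k zh :=
  Fermat.Agent.Crux.GM.coeffMap_castS D.r zh

omit [HasX K xh (N * l)] [HasX K xh (N * l * l)] in
theorem res_x : D.setup.R.Res (algebraMap (EK K xh) (FK K N) (xE K xh)) (castS k xh) := by
  show IsRes (IData.inc (A0 := A0) (K := K)) D.red (IData.Φ' _) _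
  rw [Φ'_x (A0 := A0), ← red_castS D]
  exact isRes_inc _

omit [HasX K xh (N * l)] [HasX K xh (N * l * l)] in
/-- residues of polynomials in a chart. -/
theorem res_aeval (t : EK K xh) (c : LaurentSeries k)
    (hc : D.setup.R.Res (algebraMap (EK K xh) (FK K N) t) c) (s : A0[X]) :
    D.setup.R.Res (algebraMap (EK K xh) (FK K N) (aeval t s))
      (aeval c (s.map D.r)) := by
  induction s using Polynomial.induction_on' with
  | add p q hp hq =>
    rw [map_add, map_add, Polynomial.map_add, map_add]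
    exact D.setup.R.res_add hp hq
  | monomial n a =>
    rw [aeval_monomial, map_mul, map_pow, ← IsScalarTower.algebraMap_apply, Polynomial.map_monomial,
      aeval_monomial]
    exact D.setup.R.res_mul (D.res_A (hAK N) a) (D.setup.R.res_pow hc n)

omit [HasX K xh (N * l)] [HasX K xh (N * l * l)] in
theorem res_s_of (t : EK K xh) (c : LaurentSeries k)
    (hc : D.setup.R.Res (algebraMap (EK K xh) (FK K N) t) c) (hct : Transcendental k c)
    (s : A0[X]) (hs : ¬ C (l : A0) ∣ s) :
    ∃ c', c' ≠ 0 ∧ D.setup.R.Res (algebraMap (EK K xh) (FK K N) (aeval t s)) c' := by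
  refine ⟨_, ?_, res_aeval D xh t c hc s⟩
  intro h0
  have h1 := (transcendental_iff.1 hct) _ h0
  apply hs
  rw [Polynomial.C_dvd_iff_dvd_coeff]
  intro i
  apply dvd_of_r_eq_zero D
  have := congrArg (fun p => p.coeff i) h1
  simpa using this

include D in
/-- series with coefficients in the prime field. -/
theorem V_castS (zh : LaurentSeries ℤ) : qExpand k l (castS k zh) = castS k zh ^ l := by
  haveI : Fact l.Prime := ⟨D.hl⟩
  haveI := D.charP_k
  rw [Fermat.Agent.ES.pow_char_eq l (castS k zh), Fermat.Agent.Crux.GM.coeffMap_castS]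

theorem pow_ne_self_of_order {c : LaurentSeries k} (hc : c.order ≠ 0) (j : ℕ) (hj : 1 < j) :
    c ^ j ≠ c := by
  intro h
  have h1 := congrArg HahnSeries.order h
  rw [HahnSeries.order_pow, nsmul_eq_mul] at h1
  have h2 : ((j : ℤ) - 1) * c.order = 0 := by rw [sub_mul, h1, one_mul, sub_self]
  rcases mul_eq_zero.1 h2 with h3 | h3
  · have : (j : ℤ) = 1 := by omega
    have : j = 1 := by exact_mod_cast this
    omega
  · exact hc h3

theorem transcendental_of_order_ne {c : LaurentSeries k} (hc : c.order ≠ 0) :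
    Transcendental k c := by
  intro h
  obtain ⟨a, rfl⟩ := Fermat.Agent.Crux.GM.eq_C_of_isAlgebraic c h
  exact hc HahnSeries.order_C

/-! ### `QData` from the hard fields -/

variable [CharZero (EK K xh)] [FiniteDimensional (EK K xh) (FK K N)]
  [FiniteDimensional (EK K xh) (FK K (N * l))] [FiniteDimensional (EK K xh) (FK K (N * l * l))]

theorem qdata_of (i₀ : Io l) (t : EK K xh) (ht : Transcendental A0 t)
    (hgen : ∀ c : EK K xh, ∃ p q : A0[X], q ≠ 0 ∧ c * aeval t q = aeval t p)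
    (int_b0t : IntX A0 t (IData.b0 (l := l) (algebraMap (EK K xh) (FK K N) t)))
    (c : LaurentSeries k) (hc : D.setup.R.Res (algebraMap (EK K xh) (FK K N) t) c)
    (hVc : qExpand k l c = c ^ l) (hco : c.order ≠ 0)
    (q0 : ∀ f : FK K N, InV D.setup.inc D.setup.red (D.setup.Φ' f) → IsOLx (l : A0) t f)
    (q0' : ∀ f : FK K N, InM D.setup.inc D.setup.red (D.setup.Φ' f) → IsPiOLx (l : A0) t f)
    (n0 : ∀ e : FK K N, IsOLx (l : A0) t e → ∀ P : A0[X][X], P.Monic →
      IsPiOLx (l : A0) t (P.eval₂ ((algebraMap (EK K xh) (FK K N)).comp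
        ((aeval t : A0[X] →ₐ[A0] EK K xh) : A0[X] →+* EK K xh)) e) →
      ∃ a : FK K N, IntX A0 t a ∧ IsPiOLx (l : A0) t (a - e))
    (hj1 : IsOLx (l : A0) t D.setup.j1) (hj2 : IsOLx (l : A0) t D.setup.j2)
    (insep : ∀ g : FK K N, IntX A0 t g → ∀ c, D.setup.R.Res g c →
      ∃ g' : FK K N, IntX A0 t g' ∧ ∃ c', D.setup.R.Res g' c' ∧ D.setup.Vκ c' = c ^ l) :
    QData D.setup i₀ IData.b0 D.w1K D.w2K (l : A0) t where
  hl := D.hl.two_le
  hπ := D.hπ
  ht := ht
  hgen := hgen
  a0_E := a0_E D xh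
  al_E := al_E D xh
  cst_π := cst_π D
  b0_A := b0_A
  be_A := be_A D
  w1_A := w1_A D
  w2_A := w2_A D
  Ψinf_b0 := IData.Ψinf_b0
  Ψ0_b0 := D.Ψ0_b0
  al_b0 := IData.al_b0
  b0_cst := IData.b0_cst
  Ψ0_eq := D.Ψ0_eq
  Φ0_eq := D.Φ0_eq
  w1_t := w1_t D xh t
  w2_t := w2_t D xh t
  int_b0t := int_b0t
  inV_A := inV_A D
  res_s := res_s_of D xh t c hc (transcendental_of_order_ne hco)
  res_t := ⟨c, hc, hVc, pow_ne_self_of_order hco⟩
  q0 := q0
  q0' := q0'
  n0 := n0
  hj1 := hj1
  hj2 := hj2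
  insep := insep
  hchar := hchar D

end

end Fermat.Agent.S36.Mod.Inst
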