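import Fermat.Agent.S36.Norm.KForm.Span

/-!
# S36 / Mod / Inst / WK : the Atkin–Lehner involutions `w₁`, `w₂` over `K`

`K` any field with `[Algebra K Kb]`, `FK M = modularFunctionFieldFullC K M`, `β = Crux.GT.PF.beta K M`.

* `descend w hw : FK M →ₐ[K] FK M'` for a `Qb`-algebra hom `w : FF M → FF M'` commuting with `galF`; `beta_descend`.
* `wK1 K h₁ hl`, `wK2 K h₂ hl hN` for `h₁ : SS.IsAL N l w₁`, `h₂ : Mod.IsAL2 N l w₂` and their identities.
-/

set_option autoImplicit false
set_option linter.style.haveILetI false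
set_option linter.unusedSectionVars false

open AlgebraicCurve ModularCurve

namespace Fermat.Agent.S36.Mod.WK

open Fermat.Agent.ES Fermat.Agent.S24 Fermat.Agent.SS Fermat.Agent.S36.Mod
open Fermat.Agent.Crux.GT.PF Fermat.Agent.S36.Norm Fermat.Agent.S36.Norm.KForm

noncomputable section

variable (K : Type) [Field K] [Algebra K Kb]

section Descend

variable {M M' : ℕ} [NeZero M] [NeZero M'] (w : FF M →ₐ[Qb] FF M')
  (hw : ∀ (σ : GQ) (x : FF M), galF M' σ (w x) = w (galF M σ x))

include hw in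
theorem exists_descend (f : modularFunctionFieldFullC K M) :
    ∃ g : modularFunctionFieldFullC K M', beta K M' g = w (beta K M f) :=
  exists_beta_eq_of_fixed K M' _ fun σ => by rw [hw, galF_beta]

/-- a Galois-equivariant `Qb`-algebra homomorphism descends to `K`. -/
def descend : modularFunctionFieldFullC K M →ₐ[K] modularFunctionFieldFullC K M' where
  toFun f := (exists_descend K w hw f).choose
  map_one' := beta_injective K M' (by
    rw [(exists_descend K w hw 1).choose_spec, map_one, map_one, map_one])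
  map_mul' a b := beta_injective K M' (by
    rw [(exists_descend K w hw (a * b)).choose_spec, map_mul, map_mul, map_mul,
      (exists_descend K w hw a).choose_spec, (exists_descend K w hw b).choose_spec])
  map_zero' := beta_injective K M' (by
    rw [(exists_descend K w hw 0).choose_spec, map_zero, map_zero, map_zero])
  map_add' a b := beta_injective K M' (by
    rw [(exists_descend K w hw (a + b)).choose_spec, map_add, map_add, map_add,
      (exists_descend K w hw a).choose_spec, (exists_descend K w hw b).choose_spec])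
  commutes' c := beta_injective K M' (by
    rw [(exists_descend K w hw _).choose_spec, beta_algebraMap, beta_algebraMap, AlgHom.commutes])

theorem beta_descend (f : modularFunctionFieldFullC K M) :
    beta K M' (descend K w hw f) = w (beta K M f) := (exists_descend K w hw f).choose_spec

end Descend

variable {N l : ℕ} [NeZero N] [NeZero l]
  {w₁ : FF (N * l) →ₐ[Qb] FF (N * l)} {w₂ : FF (N * l * l) →ₐ[Qb] FF (N * l * l)}

/-- `w₁` over `K`. -/
def wK1 (h₁ : IsAL N l w₁) (hl : l.Prime) :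
    modularFunctionFieldFullC K (N * l) →ₐ[K] modularFunctionFieldFullC K (N * l) :=
  descend K w₁ (fun σ x => h₁.galF_comm hl σ x)

/-- `w₂` over `K`. -/
def wK2 (h₂ : IsAL2 N l w₂) (hl : l.Prime) (hN : ¬ l ∣ N) :
    modularFunctionFieldFullC K (N * l * l) →ₐ[K] modularFunctionFieldFullC K (N * l * l) :=
  descend K w₂ (fun σ x => h₂.galF_comm hl hN σ x)

variable (h₁ : IsAL N l w₁) (h₂ : IsAL2 N l w₂) (hl : l.Prime) (hN : ¬ l ∣ N)

theorem beta_wK1 (f : modularFunctionFieldFullC K (N * l)) :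
    beta K (N * l) (wK1 K h₁ hl f) = w₁ (beta K (N * l) f) := beta_descend K _ _ f

theorem beta_wK2 (f : modularFunctionFieldFullC K (N * l * l)) :
    beta K (N * l * l) (wK2 K h₂ hl hN f) = w₂ (beta K (N * l * l) f) := beta_descend K _ _ f

theorem wK1_algebraMap (c : K) :
    wK1 K h₁ hl (algebraMap K _ c) = algebraMap K _ c := (wK1 K h₁ hl).commutes c

theorem wK2_algebraMap (c : K) :
    wK2 K h₂ hl hN (algebraMap K _ c) = algebraMap K _ c := (wK2 K h₂ hl hN).commutes c

theorem wK1_wK1 (f : modularFunctionFieldFullC K (N * l)) : wK1 K h₁ hl (wK1 K h₁ hl f) = f :=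
  beta_injective K _ (by rw [beta_wK1, beta_wK1, h₁.invol hl])

theorem wK2_wK2 (f : modularFunctionFieldFullC K (N * l * l)) :
    wK2 K h₂ hl hN (wK2 K h₂ hl hN f) = f :=
  beta_injective K _ (by rw [beta_wK2, beta_wK2, h₂.invol hl hN])

/-- `w₁ ∘ α = β`. -/
theorem wK1_dgK_one (h0 : 1 * N ∣ N * l) (hb : l * N ∣ N * l)
    (f : modularFunctionFieldFullC K N) :
    wK1 K h₁ hl (dgK K N (N * l) 1 h0 f) = dgK K N (N * l) l hb f :=
  beta_injective K _ (by
    rw [beta_wK1, beta_dgK, beta_dgK, dg_eq_alpha N l h0, dg_eq_beta N l hb, h₁.alpha])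

/-- `w₁ ∘ β = α`. -/
theorem wK1_dgK_l (h0 : 1 * N ∣ N * l) (hb : l * N ∣ N * l)
    (f : modularFunctionFieldFullC K N) :
    wK1 K h₁ hl (dgK K N (N * l) l hb f) = dgK K N (N * l) 1 h0 f :=
  beta_injective K _ (by
    rw [beta_wK1, beta_dgK, beta_dgK, dg_eq_alpha N l h0, dg_eq_beta N l hb, h₁.beta])

theorem coe_dgK_one {N M : ℕ} [NeZero N] [NeZero M] (h : 1 * N ∣ M)
    (f : modularFunctionFieldFullC K N) :
    ((dgK K N M 1 h f : modularFunctionFieldFullC K M) : LaurentSeries K)
      = (f : LaurentSeries K) := by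
  rw [coe_dgK, qExpand_one_apply]

theorem coe_wK1_dgK_l (hb : l * N ∣ N * l) (f : modularFunctionFieldFullC K N) :
    ((wK1 K h₁ hl (dgK K N (N * l) l hb f) : modularFunctionFieldFullC K (N * l)) :
      LaurentSeries K) = (f : LaurentSeries K) := by
  rw [wK1_dgK_l K h₁ hl (by rw [one_mul]; exact dvd_mul_right N l) hb, coe_dgK_one]

theorem coe_wK1_dgK_one (h0 : 1 * N ∣ N * l) (f : modularFunctionFieldFullC K N) :
    ((wK1 K h₁ hl (dgK K N (N * l) 1 h0 f) : modularFunctionFieldFullC K (N * l)) :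
      LaurentSeries K) = qExpand K l (f : LaurentSeries K) := by
  rw [wK1_dgK_one K h₁ hl h0 (by rw [mul_comm]), coe_dgK]

/-- `w₂ ∘ α' = β' ∘ w₁`. -/
theorem wK2_dgK_one (hA : 1 * (N * l) ∣ N * l * l) (hB : l * (N * l) ∣ N * l * l)
    (g : modularFunctionFieldFullC K (N * l)) :
    wK2 K h₂ hl hN (dgK K (N * l) (N * l * l) 1 hA g)
      = dgK K (N * l) (N * l * l) l hB (wK1 K h₁ hl g) :=
  beta_injective K _ (by
    rw [beta_wK2, beta_dgK, beta_dgK, beta_wK1, dg_A hA, dg_B hB, h₂.alpha h₁ hl])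

/-- `w₂ ∘ β' = α' ∘ w₁`. -/
theorem wK2_dgK_l (hA : 1 * (N * l) ∣ N * l * l) (hB : l * (N * l) ∣ N * l * l)
    (g : modularFunctionFieldFullC K (N * l)) :
    wK2 K h₂ hl hN (dgK K (N * l) (N * l * l) l hB g)
      = dgK K (N * l) (N * l * l) 1 hA (wK1 K h₁ hl g) :=
  beta_injective K _ (by
    rw [beta_wK2, beta_dgK, beta_dgK, beta_wK1, dg_A hA, dg_B hB, h₂.beta h₁ hl])

/-- `α' ∘ β = β' ∘ α`. -/
theorem dgK_one_dgK_l (h0 : 1 * N ∣ N * l) (hb : l * N ∣ N * l) (hA : 1 * (N * l) ∣ N * l * l)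
    (hB : l * (N * l) ∣ N * l * l) (f : modularFunctionFieldFullC K N) :
    dgK K (N * l) (N * l * l) 1 hA (dgK K N (N * l) l hb f)
      = dgK K (N * l) (N * l * l) l hB (dgK K N (N * l) 1 h0 f) := by
  apply Subtype.ext
  simp only [coe_dgK, qExpand_one_apply]

/-- compatibility of the `K`-level norms with `w`. -/
theorem wK1_nmK_A (hA : 1 * (N * l) ∣ N * l * l) (hB : l * (N * l) ∣ N * l * l)
    (y : modularFunctionFieldFullC K (N * l * l)) :
    wK1 K h₁ hl (nmK K (N * l) (N * l * l) 1 hA y)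
      = nmK K (N * l) (N * l * l) l hB (wK2 K h₂ hl hN y) :=
  beta_injective K _ (by
    rw [beta_wK1, beta_nmK, beta_nmK, beta_wK2, w1_nmF_A h₁ h₂ hl hN hA hB])

theorem wK1_nmK_B (hA : 1 * (N * l) ∣ N * l * l) (hB : l * (N * l) ∣ N * l * l)
    (y : modularFunctionFieldFullC K (N * l * l)) :
    wK1 K h₁ hl (nmK K (N * l) (N * l * l) l hB y)
      = nmK K (N * l) (N * l * l) 1 hA (wK2 K h₂ hl hN y) :=
  beta_injective K _ (by
    rw [beta_wK1, beta_nmK, beta_nmK, beta_wK2, w1_nmF_B' h₁ h₂ hl hN hA hB])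

/-! ### the three degrees -/

include hl hN in
theorem degHom_a0 (h0 : 1 * N ∣ N * l) : degHom (dgK K N (N * l) 1 h0).toRingHom = l + 1 :=
  degHom_dgK_0 K hl hN 1 h0

include hl in
theorem degHom_al (hA : 1 * (N * l) ∣ N * l * l) :
    degHom (dgK K (N * l) (N * l * l) 1 hA).toRingHom = l := degHom_dgK_A K hl hA

include hl in
theorem degHom_be (hB : l * (N * l) ∣ N * l * l) :
    degHom (dgK K (N * l) (N * l * l) l hB).toRingHom = l := degHom_dgK_B K hl hB

end

end Fermat.Agent.S36.Mod.WK
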