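import Fermat.Agent.S36.Mod.Inst.Level0
import Fermat.Agent.S36.Mod.Inst.FrameK
import Fermat.Agent.S36.Mod.Inst.WK
import Fermat.Agent.S36.Mod.Chart.Pack
import Fermat.Agent.S36.Val.Inst.Setup
import Fermat.Agent.S36.Val.Inst.WK
import Fermat.Agent.S36.Val.DiscTw

/-!
# S36 / Mod / Inst / QInst : the two `QData` and `XData` for the modular `Val.Setup` `D.setup`
   (tasks `S36/IQ-gen`, `S36/IQ-res`, `S36/IQ-q0`, `S36/IQ-x`, `S36/IQ-xdata`)

`D : Val.Inst.IData N l A0 K k`, `S = D.setup`, `E = EK K xh`, `x = xE K xh`, `π = (l : A0)`, `b0 = IData.b0`, `w1 = D.w1K`, `w2 = D.w2K`.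
All projections of `D.setup` unfold by `rfl`/`show` (`D.setup.a0 = IData.a0`, `D.setup.Φ' = IData.Φ'`, `D.setup.inc = IData.inc`, `D.setup.red = D.red`, …), and
`IData.Φ' f = coeffMap (algebraMap K Kb) (f : K((q)))` is `rfl` (`GT.PF.beta_coe`).
NEVER use `rfl`/`decide` to compare two ELEMENTS of `FK K M`/`EK K xh` built differently: `Subtype.ext` + the `coe_*` lemmas of `Frame.lean`.

PROOFS.
* (gen) one-liners from `Frame.lean` (`dgK_algebraMap_EF`), `Val/Inst/{Compat,Const,WK}.lean`; `AlgHom.commutes` for `dgK`.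
  `QI_hchar`: `n = l^v * n'`, `l ∤ n'` (`Nat.exists_eq_pow_mul_and_not_dvd`), `(n' : A0)` is a unit: otherwise `D.r n' = 0` (`ker r` = maximal ideal), contradiction with `D.charP_k`
  (`CharP.cast_eq_zero_iff`).
* (res) `QI_Φ'_series`: `coeffMap_comp`-type: `coeffMap (algebraMap K Kb) (coeffMap (algebraMap A0 K) g) = coeffMap (φ0 A0 K) g` (`HahnSeries.ext`, `coeffMap_coeff`).
  `QI_res_series := isRes_inc`.   `QI_res_A`: `g = C a`.  `QI_res_s`: `QData.CFalg_res_aeval` (in `Chart/Fin.lean`, needs no `QData`) + `s.map r ≠ 0`: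
  if all coefficients of `s` are killed by `r` they are divisible by `l` (`ker r = (l)`: `D.hπ.maximalIdeal_eq`), so `C l ∣ s` (`Polynomial.C_dvd_iff_dvd_coeff`).
  `QI_frob`: `qExpand k l (castS k th) = castS k th ^ l`: as `IData.hJ` (see `Val/Inst/JF.lean`; `S28`/`SS` have `V_eq_pow`-type lemmas for series with coefficients in `𝔽_l`:
  grep `frobenius`, `qExpand.*pow`, e.g. `Val.qExpand_castS_eq_pow` if present).
  `QI_pow_ne`: orders: `order (c^k) = k * order c ≠ order c`.  `QI_transcendental`: `GM.CoordHAux.transcendental_castS k xh hlead hordneg`.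
* (q0) `InV` unfolds to `⟨g, h, hh, e⟩`, `e : Φ' f * inc h = inc g`; `coeffMap (algebraMap K Kb)` is injective (`coeffMap_injective`), so `f * ι h = ι g` in `K((q))`; `q0K`, `q0K'`.
* (x) assembly.
* (xdata) see `Val/DiscTw.lean`; `tw_sub`: `isOrd_twist_sub D.B.subtype D.r1 Subtype.val_injective D.hr1 D.hlam (D.lift ζ) (D.lift ζ') (D.r1_lift ζ) (D.r1_lift ζ') hass (D.baseO T) hθ`,
  rewritten with `D.map_lift`; `hass` from `associated_sub_of_primitiveRoot D.hl` (`D.hzz` descends to `B` by `IsPrimitiveRoot.of_map_of_injective`);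
  `hθ` from `theta_ne_zero_of_order` (`coeffMap D.r1 (D.baseO T) = coeffMap D.r T` by `D.hr1ψ`).
-/

set_option autoImplicit false
set_option linter.unusedSectionVars false

open Polynomial ModularCurve
open scoped IntermediateField

namespace Fermat.Agent.S36.Mod.Inst

open Fermat.Agent.Crux.G Fermat.Agent.Crux.G.QLink
open Fermat.Agent.Crux.GM (castS GoodCoord)
open Fermat.Agent.S24 (Kb)
open Fermat.Agent.S28 (V J evAt)
open Fermat.Agent.S36.Norm Fermat.Agent.S36.Norm.KForm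
open Fermat.Agent.S36.Val
open Fermat.Agent.S36.Val.Inst (IData Io Mu)

attribute [local instance] algEF algAE algAF

variable {N l : ℕ} [NeZero N] [NeZero l] {A0 K k : Type} [CommRing A0] [IsDomain A0]
    [IsDiscreteValuationRing A0] [Field K] [Algebra A0 K] [IsFractionRing A0 K] [Algebra K Kb]
    [Field k] (D : IData N l A0 K k) {xh : LaurentSeries ℤ}
    [HasX K xh N] [HasX K xh (N * l)] [HasX K xh (N * l * l)]

/-! ### (gen)   task `S36/IQ-gen` -/

theorem QI_a0_E (c : EK K xh) : D.setup.a0 (algebraMap (EK K xh) (FK K N) c)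
    = algebraMap (EK K xh) (FK K (N * l)) c :=
  dgK_algebraMap_EF K xh (IData.dvd1 N l) c

theorem QI_al_E (c : EK K xh) : D.setup.al (algebraMap (EK K xh) (FK K (N * l)) c)
    = algebraMap (EK K xh) (FK K (N * l * l)) c :=
  dgK_algebraMap_EF K xh (IData.dvd1 (N * l) l) c

theorem QI_cst_π : D.setup.cst D.setup.π = algebraMap A0 (FK K N) (l : A0) :=
  cst_π D

theorem QI_cst_A (a : A0) : D.setup.cst (algebraMap A0 K a) = algebraMap A0 (FK K N) a :=
  hAK N a

theorem QI_b0_A (a : A0) : IData.b0 (algebraMap A0 (FK K N) a) = algebraMap A0 (FK K (N * l)) a :=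
  b0_A a

theorem QI_be_A (a : A0) : D.setup.be (algebraMap A0 (FK K (N * l)) a)
    = algebraMap A0 (FK K (N * l * l)) a :=
  be_A D a

theorem QI_coe_b0 (f : FK K N) :
    ((IData.b0 f : FK K (N * l)) : LaurentSeries K) = V K l (f : LaurentSeries K) := rfl

theorem QI_w1_A (a : A0) : D.w1K (algebraMap A0 (FK K (N * l)) a) = algebraMap A0 (FK K (N * l)) a :=
  D.w1K_cst _

theorem QI_w2_A (a : A0) : D.w2K (algebraMap A0 (FK K (N * l * l)) a)
    = algebraMap A0 (FK K (N * l * l)) a :=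
  D.w2K_cst _

theorem QI_w1_t (t : EK K xh) : D.w1K (algebraMap (EK K xh) (FK K (N * l)) t)
    = IData.b0 (algebraMap (EK K xh) (FK K N) t) := by
  rw [← QI_a0_E D]
  exact D.w1K_a0 _

theorem QI_w2_t (t : EK K xh) : D.w2K (algebraMap (EK K xh) (FK K (N * l * l)) t)
    = D.setup.be (IData.b0 (algebraMap (EK K xh) (FK K N) t)) := by
  rw [← QI_al_E D, ← QI_w1_t D]
  exact D.w2K_al _

include D in
theorem QI_hchar (n : ℕ) (hn : n ≠ 0) : ∃ (v : ℕ) (u : A0), (n : A0) * u = (l : A0) ^ v :=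
  hchar D n hn

include D in
include D in
theorem QI_perfectField : PerfectField k := by
  have : Fact l.Prime := ⟨D.hl⟩
  have := D.charP_k
  have : PerfectRing k l := PerfectRing.ofSurjective k l fun a => D.roots l D.hl.pos a
  exact PerfectRing.toPerfectField k l

theorem QI_c2 (c : K) : algebraMap K (FK K (N * l * l)) c = D.setup.c2 c := by
  show _ = (dgK K (N * l) (N * l * l) 1 (IData.dvd1 (N * l) l))
    ((dgK K N (N * l) 1 (IData.dvd1 N l)) (algebraMap K (FK K N) c))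
  rw [AlgHom.commutes, AlgHom.commutes]

/-! ### (res)   task `S36/IQ-res` -/

theorem QI_Φ'_series (f : FK K N) (g : LaurentSeries A0)
    (h : (f : LaurentSeries K) = coeffMap (algebraMap A0 K) g) : D.setup.Φ' f = D.setup.inc g := by
  show coeffMap (algebraMap K Kb) (f : LaurentSeries K) = coeffMap (IData.φ0 A0 K) g
  rw [h, coeffMap_coeffMap]
  rfl

theorem QI_res_series (f : FK K N) (g : LaurentSeries A0)
    (h : (f : LaurentSeries K) = coeffMap (algebraMap A0 K) g) :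
    D.setup.R.Res f (coeffMap D.r g) := by
  show IsRes D.setup.inc D.setup.red (D.setup.Φ' f) (coeffMap D.r g)
  rw [QI_Φ'_series D f g h]
  exact isRes_inc g

theorem QI_res_A (a : A0) :
    D.setup.R.Res (algebraMap A0 (FK K N) a) (algebraMap k (LaurentSeries k) (D.r a)) := by
  have h := QI_res_series D (algebraMap A0 (FK K N) a) (HahnSeries.C a)
    (by rw [coe_algebraMap_AF, IData.coeffMap_C'])
  rwa [IData.coeffMap_C', HahnSeries.C_apply, ← algebraMap_laurentSeries_eq_single] at h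

theorem QI_inV_A (a : A0) : InV D.setup.inc D.setup.red (D.setup.Φ' (algebraMap A0 (FK K N) a)) :=
  inV_iff.2 ⟨_, QI_res_A D a⟩

theorem QI_res_s (t : EK K xh) (tb : LaurentSeries k)
    (htb : D.setup.R.Res (algebraMap (EK K xh) (FK K N) t) tb) (htr : Transcendental k tb)
    (s : A0[X]) (hs : ¬ C (l : A0) ∣ s) :
    ∃ c, c ≠ 0 ∧ D.setup.R.Res (algebraMap (EK K xh) (FK K N) (aeval t s)) c :=
  res_s_of D xh t tb htb htr s hs

include D in
theorem QI_frob (th : LaurentSeries ℤ) : qExpand k l (castS k th) = castS k th ^ l := by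
  have : Fact l.Prime := ⟨D.hl⟩
  have := D.charP_k
  rw [Fermat.Agent.ES.pow_char_eq l (castS k th), Fermat.Agent.Crux.GM.coeffMap_castS]

omit [NeZero l] in
theorem QI_pow_ne (c : LaurentSeries k) (hc : c.order ≠ 0) (m : ℕ) (hm : 1 < m) : c ^ m ≠ c := by
  intro h
  have h1 := congrArg HahnSeries.order h
  rw [HahnSeries.order_pow, nsmul_eq_mul] at h1
  have h2 : ((m : ℤ) - 1) * c.order = 0 := by linarith
  rcases mul_eq_zero.1 h2 with h3 | h3
  · have : (m : ℤ) = 1 := by linarith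
    have : m = 1 := by exact_mod_cast this
    omega
  · exact hc h3

omit [NeZero l] in
theorem QI_order_castS (th : LaurentSeries ℤ) (hlead : th.leadingCoeff = 1) :
    (castS k th).order = th.order :=
  Fermat.Agent.Crux.GM.order_castS th hlead

omit [NeZero l] in
theorem QI_transcendental (th : LaurentSeries ℤ) (hlead : th.leadingCoeff = 1)
    (hord : th.order < 0) : Transcendental k (castS k th) :=
  Fermat.Agent.Crux.GM.CoordHAux.transcendental_castS k th hlead hord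

theorem QI_res_x : D.setup.R.Res (algebraMap (EK K xh) (FK K N) (xE K xh)) (castS k xh) := by
  have h := QI_res_series D (algebraMap (EK K xh) (FK K N) (xE K xh)) (castS A0 xh)
    (by rw [coe_algebraMap_EF, coe_xE, Fermat.Agent.Crux.GM.coeffMap_castS])
  rwa [Fermat.Agent.Crux.GM.coeffMap_castS] at h

theorem QI_res_inv (hlead : xh.leadingCoeff = 1) :
    D.setup.R.Res (algebraMap (EK K xh) (FK K N) (xE K xh)⁻¹) (castS k xh)⁻¹ := by
  rw [map_inv₀]
  exact D.setup.R.res_inv (QI_res_x D) (Fermat.Agent.Crux.GM.castS_ne_zero xh hlead)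

omit [IsDomain A0] [IsDiscreteValuationRing A0] in
theorem QI_exists_inv (th : LaurentSeries ℤ) (hlead : th.leadingCoeff = 1) :
    ∃ y : LaurentSeries A0, castS A0 th * y = 1 := by
  have hu : IsUnit th := by
    rw [HahnSeries.isUnit_iff, hlead]
    exact isUnit_one
  obtain ⟨u, hu⟩ := hu
  refine ⟨castS A0 (↑u⁻¹ : LaurentSeries ℤ), ?_⟩
  rw [← hu, castS, castS, ← map_mul, u.mul_inv, map_one]

omit [IsDomain A0] [IsDiscreteValuationRing A0] [IsFractionRing A0 K] [Algebra K Kb] in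
theorem QI_coe_inv (xh : LaurentSeries ℤ) (y : LaurentSeries A0) (hy : castS A0 xh * y = 1) :
    (((xE K xh)⁻¹ : EK K xh) : LaurentSeries K) = coeffMap (algebraMap A0 K) y := by
  rw [IntermediateField.coe_inv, coe_xE]
  symm
  apply eq_inv_of_mul_eq_one_right
  rw [← Fermat.Agent.Crux.GM.coeffMap_castS (algebraMap A0 K) xh, ← map_mul, hy, map_one]

/-! ### (q0)   task `S36/IQ-q0` -/

section good

variable {β : ℤ} {n : ℕ} (hx : GoodCoord N l xh β n)

include hx

theorem QI_holds : Level0.Holds D.r (l : A0) (incF K N) (xE K xh) ∧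
    Level0.Holds D.r (l : A0) (incF K N) (xE K xh)⁻¹ := by
  haveI := QI_perfectField D
  exact holdsK D.r hx D.hl D.hr (by rw [← D.r_l, map_natCast]) D.hπ

theorem QI_q0 (f : FK K N) (h : InV D.setup.inc D.setup.red (D.setup.Φ' f)) :
    IsOLx (l : A0) (xE K xh) f :=
  (QI_holds D hx).1.1 f h

theorem QI_q0' (f : FK K N) (h : InM D.setup.inc D.setup.red (D.setup.Φ' f)) :
    IsPiOLx (l : A0) (xE K xh) f :=
  (QI_holds D hx).1.2.1 f h

theorem QI_hj1 : IsOLx (l : A0) (xE K xh) D.setup.j1 := by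
  haveI := QI_perfectField D
  refine isOLx_jc D.r hx D.hl D.hr (by rw [← D.r_l, map_natCast]) D.hπ (IData.dvd1 N l) l _ ?_
  rfl

theorem QI_hj2 : IsOLx (l : A0) (xE K xh) D.setup.j2 := by
  haveI := QI_perfectField D
  haveI : NeZero (l * l) := ⟨mul_ne_zero (NeZero.ne l) (NeZero.ne l)⟩
  refine isOLx_jc D.r hx D.hl D.hr (by rw [← D.r_l, map_natCast]) D.hπ
    (by rw [one_mul, mul_assoc]; exact dvd_mul_right _ _) (l * l) _ ?_
  rfl

/-! ### (x)  the two `QData`   task `S36/IQ-x` -/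

variable [CharZero (EK K xh)] [FiniteDimensional (EK K xh) (FK K N)]
  [FiniteDimensional (EK K xh) (FK K (N * l))] [FiniteDimensional (EK K xh) (FK K (N * l * l))]

/-- the chart `x`. -/
theorem qdata_x (i₀ : Io l)
    (hD6 : (evAt (castS A0 xh)).IsIntegralElem (V A0 l (castS A0 xh)))
    (insep : ∀ g : FK K N, IntX A0 (xE K xh) g → ∀ c, D.setup.R.Res g c →
      ∃ g' : FK K N, IntX A0 (xE K xh) g' ∧ ∃ c', D.setup.R.Res g' c' ∧ D.setup.Vκ c' = c ^ l) :
    QData D.setup i₀ IData.b0 D.w1K D.w2K (l : A0) (xE K xh) where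
  hl := D.hl.two_le
  hπ := D.hπ
  ht := transcendental_xE hx
  hgen := hgen_xE hx
  a0_E := QI_a0_E D
  al_E := QI_al_E D
  cst_π := QI_cst_π D
  b0_A := QI_b0_A
  be_A := QI_be_A D
  w1_A := QI_w1_A D
  w2_A := QI_w2_A D
  Ψinf_b0 := IData.Ψinf_b0
  Ψ0_b0 := D.Ψ0_b0
  al_b0 := IData.al_b0
  b0_cst := IData.b0_cst
  Ψ0_eq := D.Ψ0_eq
  Φ0_eq := D.Φ0_eq
  w1_t := QI_w1_t D _
  w2_t := QI_w2_t D _
  int_b0t := by
    refine intX_of_evAt (xE K xh) _ (castS A0 xh) (V A0 l (castS A0 xh)) ?_ ?_ hD6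
    · rw [coe_xE, Fermat.Agent.Crux.GM.coeffMap_castS]
    · rw [QI_coe_b0, coe_algebraMap_EF, coe_xE, Fermat.Agent.S28.Build.coeffMap_V,
        Fermat.Agent.Crux.GM.coeffMap_castS]
  inV_A := QI_inV_A D
  res_s := QI_res_s D _ _ (QI_res_x D) (QI_transcendental xh hx.leading hx.order_neg)
  res_t := ⟨castS k xh, QI_res_x D, QI_frob D xh, QI_pow_ne _ (by
    rw [QI_order_castS xh hx.leading]; exact hx.order_neg.ne)⟩
  q0 := QI_q0 D hx
  q0' := QI_q0' D hx
  n0 := (QI_holds D hx).1.2.2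
  hj1 := QI_hj1 D hx
  hj2 := QI_hj2 D hx
  insep := insep
  hchar := QI_hchar D

/-- the chart `x⁻¹`. -/
theorem qdata_inv (i₀ : Io l)
    (hD6 : ∀ y : LaurentSeries A0, castS A0 xh * y = 1 → (evAt y).IsIntegralElem (V A0 l y))
    (insep : ∀ g : FK K N, IntX A0 (xE K xh)⁻¹ g → ∀ c, D.setup.R.Res g c →
      ∃ g' : FK K N, IntX A0 (xE K xh)⁻¹ g' ∧ ∃ c', D.setup.R.Res g' c' ∧ D.setup.Vκ c' = c ^ l) :
    QData D.setup i₀ IData.b0 D.w1K D.w2K (l : A0) (xE K xh)⁻¹ where
  hl := D.hl.two_le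
  hπ := D.hπ
  ht := transcendental_inv (transcendental_xE hx)
  hgen := hgen_inv (transcendental_xE hx) (hgen_xE hx)
  a0_E := QI_a0_E D
  al_E := QI_al_E D
  cst_π := QI_cst_π D
  b0_A := QI_b0_A
  be_A := QI_be_A D
  w1_A := QI_w1_A D
  w2_A := QI_w2_A D
  Ψinf_b0 := IData.Ψinf_b0
  Ψ0_b0 := D.Ψ0_b0
  al_b0 := IData.al_b0
  b0_cst := IData.b0_cst
  Ψ0_eq := D.Ψ0_eq
  Φ0_eq := D.Φ0_eq
  w1_t := QI_w1_t D _
  w2_t := QI_w2_t D _
  int_b0t := by
    obtain ⟨y, hy⟩ := QI_exists_inv (A0 := A0) xh hx.leading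
    have hyK : ((xE K xh)⁻¹ : EK K xh) = coeffMap (algebraMap A0 K) y := QI_coe_inv xh y hy
    refine intX_of_evAt (xE K xh)⁻¹ _ y (V A0 l y) hyK ?_ (hD6 y hy)
    rw [QI_coe_b0, coe_algebraMap_EF, hyK, Fermat.Agent.S28.Build.coeffMap_V]
  inV_A := QI_inV_A D
  res_s := QI_res_s D _ _ (QI_res_inv D hx.leading)
    (transcendental_inv (QI_transcendental xh hx.leading hx.order_neg))
  res_t := by
    have hc0 : castS k xh ≠ 0 := fun h =>
      QI_transcendental (k := k) xh hx.leading hx.order_neg (h ▸ isAlgebraic_zero)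
    refine ⟨(castS k xh)⁻¹, QI_res_inv D hx.leading, ?_, fun m hm h => ?_⟩
    · show qExpand k l (castS k xh)⁻¹ = _
      rw [map_inv₀, QI_frob D xh, inv_pow]
    · rw [inv_pow, inv_inj] at h
      exact QI_pow_ne _ (by rw [QI_order_castS xh hx.leading]; exact hx.order_neg.ne) m hm h
  q0 := (QI_holds D hx).2.1
  q0' := (QI_holds D hx).2.2.1
  n0 := (QI_holds D hx).2.2.2
  hj1 := (isOLx_inv_iff D.hπ.prime (xE_ne_zero hx) _).2 (QI_hj1 D hx)
  hj2 := (isOLx_inv_iff D.hπ.prime (xE_ne_zero hx) _).2 (QI_hj2 D hx)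
  insep := insep
  hchar := QI_hchar D

end good

end Fermat.Agent.S36.Mod.Inst
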