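import Fermat.Agent.S36.Mod.Inst.Level0
import Fermat.Agent.S36.Mod.Inst.Insep
import Fermat.Agent.S36.Mod.IntUnit.Main

/-!
# S36 / Mod / Inst / D6Inst : the fields `int_b0t` and `insep` of `QData` in the concrete frame, both charts

`D : IData N l A0 K k`, `xh = V ℤ e h` (`hd : GM.HauptData M0 h P β`), `E = EK K xh`, `x = xE K xh`, algebra structures `algEF`, `algAE`, `algAF`.
-/

set_option autoImplicit false
set_option linter.unusedSectionVars false

open Polynomial ModularCurve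
open scoped IntermediateField

namespace Fermat.Agent.S36.Mod.Inst

open Fermat.Agent.Crux.G
open Fermat.Agent.Crux.GM (castS GoodCoord HauptData coeffMap_castS)
open Fermat.Agent.S24 (Kb XN)
open Fermat.Agent.S28 (V J evAt)
open Fermat.Agent.S36.Norm.KForm (dgK coe_dgK)
open Fermat.Agent.S36.Val.Inst (IData)

attribute [local instance] algEF algAE algAF

variable {N l : ℕ} [NeZero N] [NeZero l] {A0 K k : Type} [CommRing A0] [IsDomain A0]
    [IsDiscreteValuationRing A0] [Field K] [Algebra A0 K] [IsFractionRing A0 K] [Algebra K Kb]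
    [Field k] (D : IData N l A0 K k)

section general

variable (xh : LaurentSeries ℤ) [HasX K xh N] [HasX K xh (N * l)]

theorem coe_b0 (f : FK K N) :
    ((IData.b0 (l := l) f : FK K (N * l)) : LaurentSeries K) = qExpand K l (f : LaurentSeries K) :=
  coe_dgK K N (N * l) l (IData.dvdl N l) f

theorem coe_xE_inv (y : LaurentSeries A0) (hy : castS A0 xh * y = 1) :
    (((xE K xh)⁻¹ : EK K xh) : LaurentSeries K) = coeffMap (algebraMap A0 K) y := by
  rw [IntermediateField.coe_inv, coe_xE]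
  symm
  apply eq_inv_of_mul_eq_one_right
  rw [← coeffMap_castS (algebraMap A0 K) xh, ← map_mul, hy, map_one]

/-- `int_b0t` for `t = x` from (D6a). -/
theorem int_b0t_x_of (h : (evAt (castS A0 xh)).IsIntegralElem (V A0 l (castS A0 xh))) :
    IntX A0 (xE K xh) (IData.b0 (l := l) (algebraMap (EK K xh) (FK K N) (xE K xh))) := by
  refine intX_of_evAt (M := N * l) (xE K xh) _ (castS A0 xh) (V A0 l (castS A0 xh)) ?_ ?_ h
  · rw [coe_xE, coeffMap_castS]
  · rw [coe_b0, coe_algebraMap_EF, coe_xE, coeffMap_qExpand, coeffMap_castS]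

/-- `int_b0t` for `t = x⁻¹` from (D6b). -/
theorem int_b0t_inv_of (y : LaurentSeries A0) (hy : castS A0 xh * y = 1)
    (h : (evAt y).IsIntegralElem (V A0 l y)) :
    IntX A0 (xE K xh)⁻¹ (IData.b0 (l := l) (algebraMap (EK K xh) (FK K N) (xE K xh)⁻¹)) := by
  refine intX_of_evAt (M := N * l) (xE K xh)⁻¹ _ y (V A0 l y) (coe_xE_inv xh y hy) ?_ h
  rw [coe_b0, coe_algebraMap_EF, coe_xE_inv xh y hy, coeffMap_qExpand]

/-- the inverse series. -/
theorem exists_inv_castS (hlead : xh.leadingCoeff = 1) :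
    ∃ y : LaurentSeries A0, castS A0 xh * y = 1 := by
  have hu : IsUnit (castS A0 xh) := by
    rw [HahnSeries.isUnit_iff, HahnSeries.leadingCoeff_eq,
      Fermat.Agent.Crux.GM.order_castS xh hlead, Fermat.Agent.Crux.GM.castS_coeff_order xh hlead]
    exact isUnit_one
  obtain ⟨u, hu⟩ := hu
  exact ⟨(↑u⁻¹ : LaurentSeries A0), by rw [← hu]; exact u.mul_inv⟩

/-- `insep` for `t = x`. -/
theorem insep_x (τK : K →+* K) (τA : A0 →+* A0)
    (h1 : ∀ a, τK (algebraMap A0 K a) = algebraMap A0 K (τA a))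
    (h2 : ∀ a, D.r (τA a) = D.r a ^ l) :
    ∀ g : FK K N, IntX A0 (xE K xh) g → ∀ c, D.setup.R.Res g c →
      ∃ g' : FK K N, IntX A0 (xE K xh) g' ∧ ∃ c', D.setup.R.Res g' c' ∧ D.setup.Vκ c' = c ^ l := by
  refine insep D τK τA h1 h2 (fun a => rfl) (xE K xh) ?_
  rw [coe_algebraMap_EF, coe_xE, coeffMap_castS]

/-- `insep` for `t = x⁻¹`. -/
theorem insep_inv (τK : K →+* K) (τA : A0 →+* A0)
    (h1 : ∀ a, τK (algebraMap A0 K a) = algebraMap A0 K (τA a))
    (h2 : ∀ a, D.r (τA a) = D.r a ^ l) :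
    ∀ g : FK K N, IntX A0 (xE K xh)⁻¹ g → ∀ c, D.setup.R.Res g c →
      ∃ g' : FK K N, IntX A0 (xE K xh)⁻¹ g' ∧
        ∃ c', D.setup.R.Res g' c' ∧ D.setup.Vκ c' = c ^ l := by
  refine insep D τK τA h1 h2 (fun a => rfl) (xE K xh)⁻¹ ?_
  rw [coe_algebraMap_EF, IntermediateField.coe_inv, coe_xE, map_inv₀, coeffMap_castS]

end general

section haupt

variable (M0 e : ℕ) [NeZero M0] [NeZero e] (h : LaurentSeries ℤ) (P : ℤ[X]) (β : ℤ)
  (hd : HauptData M0 h P β) (hcard : Nat.card (XN M0) = P.natDegree) (hlM : ¬ l ∣ M0)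
  [HasX K (V ℤ e h) N] [HasX K (V ℤ e h) (N * l)]

include D hd hcard hlM

/-- **`QData.int_b0t`, chart `t = x`.** -/
theorem int_b0t_x (hP0 : P.eval 0 ≠ 0) :
    IntX A0 (xE K (V ℤ e h))
      (IData.b0 (l := l) (algebraMap (EK K (V ℤ e h)) (FK K N) (xE K (V ℤ e h)))) := by
  have : CharZero K := (algebraMap K Kb).charZero
  exact int_b0t_x_of (V ℤ e h) (IntUnit.D6a M0 l h P β hd hcard D.hl hlM K e hP0)

/-- **`QData.int_b0t`, chart `t = x⁻¹`.** -/
theorem int_b0t_inv (hP0 : IsUnit ((P.eval 0 : ℤ) : A0)) :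
    IntX A0 (xE K (V ℤ e h))⁻¹
      (IData.b0 (l := l) (algebraMap (EK K (V ℤ e h)) (FK K N) (xE K (V ℤ e h))⁻¹)) := by
  have : CharZero K := (algebraMap K Kb).charZero
  obtain ⟨y, hy⟩ := exists_inv_castS (A0 := A0) (V ℤ e h)
    (Fermat.Agent.Crux.GM.CoordHAux.leadingCoeff_V e h hd.order hd.leading)
  exact int_b0t_inv_of (V ℤ e h) y hy (IntUnit.D6b M0 l h P β hd hcard D.hl hlM K e hP0 y hy)

end haupt

end Fermat.Agent.S36.Mod.Inst
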