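import Fermat.Agent.S36.Mod.Chart.Fin
import Fermat.Agent.S36.Norm.KForm.Deg
import Fermat.Agent.Crux.GM.Main

/-!
# S36 / Mod / Inst / Frame : the concrete fields `E = K(x) ⊆ F_K(M)` and their algebra structures        (task `S36/IF-frame`)

`(A, K)` as in `Crux/GM` (`A` a DVR, `K = Frac A`, `[Algebra K Kb]`), `xh ∈ ℤ((q))` the coordinate (`GM.GoodCoord N l xh β n`).
`FK K M = ↥(modularFunctionFieldFullC K M)`, `EK K xh = ↥(K⟮castS K xh⟯)`, `xE K xh : EK K xh` the generator.
The algebra structures are REDUCIBLE DEFS; every file of `Mod/Inst` starts with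
`attribute [local instance] algEF algAE algAF` (and `HasX K xh M` is a class: `castS K xh ∈ F_K(M)`).

PROOFS.  Everything is `Subtype.ext`/`rfl` + the glue lemmas of `Crux/GM/Main.lean` (`Main.coe_eval₂_gen`, `Main.eq_zero_of_eval₂_gen`, `Main.exists_frac_gen`;
see `Main.core_tower` and `coreK_of_goodCoord` for the way they are used).
* `finrank_EF` : `IntermediateField.relfinrank_eq_finrank_of_le` + `hx.deg K`; the `E`-module `↥(extendScalars hle)` and `FK K N` with `algEF` are linearly equivalent
  (identity on carriers); or `IntermediateField.finrank_eq…`/`relfinrank` API directly.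
* `finiteDimensional_EF'` : `M = N * c`: `F_K(M)` is finite over `F_K(N)` (`KForm.finHom_dgK K N M 1 _`), tower (`Module.Finite.trans` after building the `IsScalarTower`, or
  `FiniteDimensional` via `Norm.FinHom` API of `S36/Norm/General.lean`).
-/

set_option autoImplicit false

open Polynomial ModularCurve
open scoped IntermediateField

namespace Fermat.Agent.S36.Mod.Inst

open Fermat.Agent.Crux.GM (castS GoodCoord)
open Fermat.Agent.S24 (Kb)
open Fermat.Agent.S36.Norm.KForm (dgK)

noncomputable section

variable (A K : Type) [CommRing A] [Field K] [Algebra A K] (xh : LaurentSeries ℤ)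

/-- `F_K(M)`. -/
abbrev FK (M : ℕ) [NeZero M] : Type := ↥(modularFunctionFieldFullC K M)

/-- `E = K(x)`. -/
abbrev EK : Type := ↥(K⟮castS K xh⟯)

/-- the coordinate. -/
def xE : EK K xh := IntermediateField.AdjoinSimple.gen K (castS K xh)

/-- the coordinate lies in `F_K(M)`. -/
class HasX (M : ℕ) [NeZero M] : Prop where
  mem : castS K xh ∈ modularFunctionFieldFullC K M

theorem EK_le (M : ℕ) [NeZero M] [h : HasX K xh M] :
    K⟮castS K xh⟯ ≤ modularFunctionFieldFullC K M :=
  IntermediateField.adjoin_simple_le_iff.2 h.mem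

/-- `E → F_K(M)`. -/
@[reducible] def algEF (M : ℕ) [NeZero M] [HasX K xh M] : Algebra (EK K xh) (FK K M) :=
  (IntermediateField.inclusion (EK_le K xh M)).toRingHom.toAlgebra

/-- `A → E`. -/
@[reducible] def algAE : Algebra A (EK K xh) :=
  ((algebraMap K (EK K xh)).comp (algebraMap A K)).toAlgebra

/-- `A → F_K(M)`. -/
@[reducible] def algAF (M : ℕ) [NeZero M] : Algebra A (FK K M) :=
  ((algebraMap K (FK K M)).comp (algebraMap A K)).toAlgebra

attribute [local instance] algEF algAE algAF

instance isScalarTower_AEF (M : ℕ) [NeZero M] [HasX K xh M] :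
    IsScalarTower A (EK K xh) (FK K M) :=
  IsScalarTower.of_algebraMap_eq fun a =>
    ((IntermediateField.inclusion (EK_le K xh M)).commutes (algebraMap A K a)).symm

theorem coe_xE : ((xE K xh : EK K xh) : LaurentSeries K) = castS K xh :=
  IntermediateField.AdjoinSimple.coe_gen K (castS K xh)

theorem coe_algebraMap_EF (M : ℕ) [NeZero M] [HasX K xh M] (c : EK K xh) :
    ((algebraMap (EK K xh) (FK K M) c : FK K M) : LaurentSeries K) = (c : LaurentSeries K) :=
  IntermediateField.coe_inclusion (EK_le K xh M) c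

theorem coe_algebraMap_AF (M : ℕ) [NeZero M] (a : A) :
    ((algebraMap A (FK K M) a : FK K M) : LaurentSeries K) = HahnSeries.C (algebraMap A K a) := by
  change algebraMap K (LaurentSeries K) (algebraMap A K a) = _
  rw [algebraMap_laurentSeries_eq_single, HahnSeries.C_apply]

theorem hasX_of_dvd {N M : ℕ} [NeZero N] [NeZero M] (h : 1 * N ∣ M) [hN : HasX K xh N] :
    HasX K xh M :=
  ⟨full_degeneracyC_le K (by rwa [one_mul] at h) hN.mem⟩

/-- `dgK .. 1` is `E`-linear. -/
theorem dgK_algebraMap_EF [Algebra K Kb] {N M : ℕ} [NeZero N] [NeZero M] (h : 1 * N ∣ M) [HasX K xh N]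
    [HasX K xh M] (c : EK K xh) :
    dgK K N M 1 h (algebraMap (EK K xh) (FK K N) c) = algebraMap (EK K xh) (FK K M) c := by
  apply Subtype.ext
  rw [Fermat.Agent.S36.Norm.KForm.coe_dgK, coe_algebraMap_EF, coe_algebraMap_EF,
    qExpand_one_apply]

/-- the identity `↥(extendScalars _) → F_K(M)` as an `E`-linear equivalence. -/
def extendEquiv (M : ℕ) [NeZero M] [HasX K xh M] :
    ↥(IntermediateField.extendScalars (EK_le K xh M)) ≃ₗ[EK K xh] FK K M where
  toFun y := ⟨y.1, y.2⟩
  invFun y := ⟨y.1, y.2⟩
  map_add' _ _ := rfl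
  map_smul' c y := by
    apply Subtype.ext
    rw [RingHom.id_apply, Algebra.smul_def, Algebra.smul_def]
    rfl
  left_inv _ := rfl
  right_inv _ := rfl

theorem charZero_EK [CharZero K] : CharZero (EK K xh) :=
  charZero_of_injective_algebraMap (algebraMap K (EK K xh)).injective

section good

variable {A K xh}
variable [IsDomain A] [IsFractionRing A K] [Algebra K Kb]
  {N l : ℕ} [NeZero N] {β : ℤ} {n : ℕ} (hx : GoodCoord N l xh β n)

include hx

theorem hasX_of_goodCoord : HasX K xh N := by
  haveI : CharZero K := (algebraMap K Kb).charZero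
  exact ⟨hx.mem K⟩

theorem transcendental_castS : Transcendental K (castS K xh) :=
  Fermat.Agent.Crux.GM.transcendental_of_order_neg _
    (by rw [Fermat.Agent.Crux.GM.order_castS xh hx.leading]; exact hx.order_neg)

theorem transcendental_xE : Transcendental A (xE K xh) :=
  transcendental_iff.2 fun P hP =>
    Fermat.Agent.Crux.GM.Main.eq_zero_of_eval₂_gen (A := A) _ (transcendental_castS hx) _
      (fun _ => rfl) P hP

omit hx in
theorem hgen_xE' : ∀ c : EK K xh, ∃ p q : A[X], q ≠ 0 ∧ c * aeval (xE K xh) q = aeval (xE K xh) p :=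
  fun c => Fermat.Agent.Crux.GM.Main.exists_frac_gen (A := A) _ _ (fun _ => rfl) c

theorem hgen_xE : ∀ c : EK K xh, ∃ p q : A[X], q ≠ 0 ∧ c * aeval (xE K xh) q = aeval (xE K xh) p :=
  hgen_xE'

theorem xE_ne_zero : xE K xh ≠ 0 := fun h => by
  have h1 := coe_xE K xh
  rw [h, ZeroMemClass.coe_zero] at h1
  exact transcendental_castS (K := K) hx (h1 ▸ isAlgebraic_zero)

theorem finrank_EF [HasX K xh N] : Module.finrank (EK K xh) (FK K N) = n := by
  haveI : CharZero K := (algebraMap K Kb).charZero
  rw [← (extendEquiv K xh N).finrank_eq,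
    ← IntermediateField.relfinrank_eq_finrank_of_le (EK_le K xh N)]
  exact hx.deg K

theorem finiteDimensional_EF [HasX K xh N] : FiniteDimensional (EK K xh) (FK K N) :=
  FiniteDimensional.of_finrank_pos (by rw [finrank_EF hx]; exact hx.n_pos)

theorem finiteDimensional_EF' [HasX K xh N] {M : ℕ} [NeZero M] (h : 1 * N ∣ M) [HasX K xh M] :
    FiniteDimensional (EK K xh) (FK K M) := by
  haveI := finiteDimensional_EF (K := K) hx
  letI : Algebra (FK K N) (FK K M) := (dgK K N M 1 h).toRingHom.toAlgebra
  haveI : FiniteDimensional (FK K N) (FK K M) := Fermat.Agent.S36.Norm.KForm.finHom_dgK K N M 1 h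
  haveI : IsScalarTower (EK K xh) (FK K N) (FK K M) :=
    IsScalarTower.of_algebraMap_eq fun c => (dgK_algebraMap_EF K xh h c).symm
  exact FiniteDimensional.trans (EK K xh) (FK K N) (FK K M)

end good

end

end Fermat.Agent.S36.Mod.Inst
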