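import Fermat.Agent.S36.Mod.Inst.QInst
import Fermat.Agent.S36.Mod.Inst.D6Inst
import Fermat.Agent.S36.Unr.CuspEx
import Fermat.Agent.S36.Val.Inst.KeyK

/-!
# S36 / Mod / Inst / Concrete : `Val.Inst.InputsHyp`, hence `Top.KeyK`
-/

set_option autoImplicit false
set_option linter.unusedSectionVars false

open Polynomial ModularCurve
open scoped IntermediateField

namespace Fermat.Agent.S36.Mod.Inst

open Fermat.Agent.Crux.G Fermat.Agent.Crux.G.QLink
open Fermat.Agent.Crux.GM (castS GoodCoord HauptData)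
open Fermat.Agent.S24 (Kb XN)
open Fermat.Agent.S28 (V J evAt)
open Fermat.Agent.S36.Norm Fermat.Agent.S36.Norm.KForm
open Fermat.Agent.S36.Val
open Fermat.Agent.S36.Val.Inst (IData Io Mu Inputs InputsHyp)

attribute [local instance] algEF algAE algAF

/-- a rational integer prime to `l` is a unit of `A0`. -/
theorem Concrete_isUnit_intCast {N l : ℕ} [NeZero N] [NeZero l] {A0 K k : Type} [CommRing A0]
    [IsDomain A0] [IsDiscreteValuationRing A0] [Field K] [Algebra A0 K] [IsFractionRing A0 K]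
    [Algebra K Kb] [Field k] (D : IData N l A0 K k) (a : ℤ) (ha : ¬ (l : ℤ) ∣ a) :
    IsUnit ((a : ℤ) : A0) := by
  by_contra hu
  have h1 : (RingHom.ker D.r).IsMaximal := RingHom.ker_isMaximal_of_surjective D.r D.hr
  have h2 : RingHom.ker D.r = IsLocalRing.maximalIdeal A0 := IsLocalRing.eq_maximalIdeal h1
  have h3 : ((a : ℤ) : A0) ∈ IsLocalRing.maximalIdeal A0 := (IsLocalRing.mem_maximalIdeal _).2 hu
  rw [← h2, RingHom.mem_ker, map_intCast] at h3
  haveI := D.charP_k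
  exact ha ((CharP.intCast_eq_zero_iff k l a).1 h3)

/-- the Hauptmodul identity in the form of `Unr/CuspEx.lean`. -/
theorem Concrete_hid (K : Type) [Field K] (M0 e : ℕ) [NeZero M0] [NeZero e] [NeZero (M0 * e)]
    (h : LaurentSeries ℤ) (P : ℤ[X]) (hid : evAt h P = V ℤ M0 (J ℤ) * h) :
    Fermat.Agent.S36.Unr.evZ (castS K (V ℤ e h)) P
      = qExpand K (M0 * e) (jqModC K) * castS K (V ℤ e h) := by
  have h1 := Fermat.Agent.Crux.GM.CoordHAux.ident_castS K M0 e h P hid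
  rw [← h1, aeval_def, eval₂_map]
  show eval₂ _ _ P = eval₂ _ _ P
  congr 1
  exact RingHom.ext_int _ _

set_option maxHeartbeats 4000000 in
/-- **the inputs of the end game.** -/
theorem inputsHyp : InputsHyp := by
  intro M0 e l _ _ _ _ h P β n hd hcard h49 hβ hP0 hx A0 K k _ _ _ _ _ _ _ _ _ _ D τK τA h1 h2
    _ _ _ _ _ _ _ i₀
  have hlM : ¬ l ∣ M0 := fun hh => D.hN (hh.mul_right e)
  have hP0' : P.eval 0 ≠ 0 := fun h0 => hP0 (by rw [h0]; exact dvd_zero _)
  have hP0u : IsUnit ((P.eval 0 : ℤ) : A0) := Concrete_isUnit_intCast D _ hP0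
  have hcop : Nat.Coprime (M0 * e) l := ((Nat.Prime.coprime_iff_not_dvd D.hl).2 D.hN).symm
  have D0 := qdata_x D hx i₀ (IntUnit.D6a M0 l h P β hd hcard D.hl hlM K e hP0')
    (insep_x D (V ℤ e h) τK τA h1 h2)
  have Dinf := qdata_inv D hx i₀ (IntUnit.D6b M0 l h P β hd hcard D.hl hlM K e hP0u)
    (insep_inv D (V ℤ e h) τK τA h1 h2)
  have ha0 : ∀ f : FK K (M0 * e), ((D.setup.a0 f : FK K (M0 * e * l)) : LaurentSeries K) = f :=
    fun f => WK.coe_dgK_one K (IData.dvd1 (M0 * e) l) f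
  have hb0 : ∀ f : FK K (M0 * e), ((IData.b0 f : FK K (M0 * e * l)) : LaurentSeries K)
      = qExpand K l (f : LaurentSeries K) := fun f => coe_b0 f
  have hal : ∀ f : FK K (M0 * e * l),
      ((D.setup.al f : FK K (M0 * e * l * l)) : LaurentSeries K) = f :=
    fun f => WK.coe_dgK_one K (IData.dvd1 (M0 * e * l) l) f
  have hid := Concrete_hid K M0 e h P hd.ident
  obtain ⟨a₀, b₀, k₀, m₀, H0⟩ := Fermat.Agent.S36.Unr.exists_cuspIn_x D0 D.hl ha0 hb0 hal P hd.monic
    hP0u (by rw [coe_algebraMap_EF, coe_xE]; exact hid)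
  obtain ⟨a₁, b₁, k₁, m₁, H1⟩ := Fermat.Agent.S36.Unr.exists_cuspIn_inv Dinf D.hl ha0 hb0 hal P
    hd.monic (by have := hd.deg; omega) (castS K (V ℤ e h))
    (by
      rw [coe_algebraMap_EF, IntermediateField.coe_inv, coe_xE]
      refine inv_mul_cancel₀ ?_
      rw [← coe_xE]
      exact fun h0 => xE_ne_zero hx (Subtype.ext h0)) hid
  exact ⟨D0, Dinf, H0.unr1 D.hl.two_le h49, H0.unr2 D.hl hcop h49, H1.unr1 D.hl.two_le h49,
    H1.unr2 D.hl hcop h49⟩

/-- **`Top.KeyK`.** -/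
theorem keyK : Fermat.Agent.S36.Top.KeyK := Fermat.Agent.S36.Val.Inst.keyK_of_inputs inputsHyp

end Fermat.Agent.S36.Mod.Inst
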