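import Fermat.Agent.S36.Mod.Inst.Level0Abs
import Fermat.Agent.S28.IntTower
import Fermat.Agent.S36.Mod.Chart.Of

/-!
# S36 / Mod / Inst / Level0J : `hj1`, `hj2` of `QData` (abstract frame)

* `IsOL.of_root` / `isOLx_of_root` : `O_L` is integrally closed in `L`.
* `isOLx_aeval` : polynomials with coefficients in `A` in an element of `O_L`.
* `isOLx_of_expansion` : `y ∈ F'` with expansion `j(q^d)` lies in `O_{F'}` as soon as `j0 ∈ O_F` (`j(q^d)` is integral over `A[j(q)]`).
-/

set_option autoImplicit false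
set_option linter.unusedSectionVars false

open Polynomial ModularCurve AlgebraicCurve

namespace Fermat.Agent.S36.Mod.Level0

open Fermat.Agent.Crux.G Fermat.Agent.Crux.G.QLink Fermat.Agent.Crux.GM Fermat.Agent.S28
open Fermat.Agent.S24 (Kb FN)

/-- `O_L` is integrally closed in `L`. -/
theorem IsOL.of_root {A L : Type*} [CommRing A] [IsDomain A] {π : A} [Field L] [Algebra A[X] L]
    (hπ : Prime π) (p : L[X]) (hp : p.Monic) (hc : ∀ i, IsOL π (p.coeff i)) (y : L)
    (hy : p.eval y = 0) : IsOL π y := by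
  classical
  choose s hs hint using hc
  set S : A[X] := ∏ i ∈ Finset.range p.natDegree, s i with hS
  have hSπ : ¬ C π ∣ S := by
    intro h
    obtain ⟨i, -, hi⟩ := (Prime.dvd_finset_prod_iff (Sat.prime_C hπ) _).1 h
    exact hs i hi
  have hSint : ∀ i, i < p.natDegree → IsIntegral A[X] (S • p.coeff i) := by
    intro i hi
    have h1 : S = (∏ j ∈ (Finset.range p.natDegree).erase i, s j) * s i := by
      rw [hS, mul_comm, Finset.mul_prod_erase _ _ (Finset.mem_range.2 hi)]
    rw [h1, mul_smul]
    exact (hint i).smul _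
  refine ⟨S, hSπ, ?_⟩
  set σ : L := algebraMap A[X] L S with hσ
  have hσint : IsIntegral A[X] σ := isIntegral_algebraMap
  have hq : (p.scaleRoots σ).Monic := (monic_scaleRoots_iff σ).2 hp
  have hcoef : ∀ i, IsIntegral A[X] ((p.scaleRoots σ).coeff i) := by
    intro i
    rw [coeff_scaleRoots]
    rcases lt_trichotomy i p.natDegree with h | h | h
    · obtain ⟨j, hj⟩ : ∃ j, p.natDegree - i = j + 1 := ⟨p.natDegree - i - 1, by omega⟩
      rw [hj, pow_succ]
      have h2 : p.coeff i * (σ ^ j * σ) = (S • p.coeff i) * σ ^ j := by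
        rw [Algebra.smul_def]; ring
      rw [h2]
      exact (hSint i h).mul (hσint.pow j)
    · rw [h, hp.coeff_natDegree, Nat.sub_self, pow_zero, mul_one]
      exact isIntegral_one
    · rw [coeff_eq_zero_of_natDegree_lt h, zero_mul]
      exact isIntegral_zero
  have hroot : (p.scaleRoots σ).eval (σ * y) = 0 := by
    have := scaleRoots_eval₂_mul (RingHom.id L) y σ (p := p)
    simp only [RingHom.id_apply, eval₂_id] at this
    rw [this, hy, mul_zero]
  have hl : p.scaleRoots σ ∈ Polynomial.lifts (algebraMap (integralClosure A[X] L) L) := by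
    rw [Polynomial.lifts_iff_coeff_lifts]
    intro i
    exact ⟨⟨_, hcoef i⟩, rfl⟩
  obtain ⟨q', hq', -, hq'm⟩ := Polynomial.lifts_and_natDegree_eq_and_monic hl hq
  have h3 : IsIntegral (integralClosure A[X] L) (σ * y) := by
    refine ⟨q', hq'm, ?_⟩
    rw [← eval_map, hq']
    exact hroot
  have h4 : IsIntegral A[X] (σ * y) := isIntegral_trans _ h3
  rwa [Algebra.smul_def]

section X

variable {A E L : Type*} [CommRing A] [IsDomain A] [Field E] [Field L] [Algebra A E] [Algebra E L]

theorem isOLx_of_root {π : A} (hπ : Prime π) (t : E) (p : L[X]) (hp : p.Monic)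
    (hc : ∀ i, IsOLx π t (p.coeff i)) (y : L) (hy : p.eval y = 0) : IsOLx π t y := by
  letI := algL (A := A) L t
  exact IsOL.of_root hπ p hp hc y hy

theorem isOLx_aeval [Algebra A L] [IsScalarTower A E L] {π : A} (hπ : Prime π) (t : E) {z : L}
    (hz : IsOLx π t z) (Q : A[X]) : IsOLx π t (aeval z Q) := by
  letI := algL (A := A) L t
  have hz' : IsOL π z := hz
  show IsOL π (aeval z Q)
  induction Q using Polynomial.induction_on' with
  | add p q hp hq => rw [map_add]; exact hp.add hπ hq
  | monomial n a =>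
    rw [aeval_monomial]
    refine IsOL.mul hπ ?_ (hz'.pow hπ n)
    have : algebraMap A L a = algebraMap A[X] L (C a) := by
      show _ = algebraMap E L (aeval t (C a))
      rw [aeval_C, ← IsScalarTower.algebraMap_apply]
    rw [this]
    exact isOL_algebraMap hπ _

end X

section Expansion

variable {A K : Type*} [CommRing A] [IsDomain A] [Field K] [Algebra A K]
variable {E F F' : Type*} [Field E] [Field F] [Field F'] [Algebra A E] [Algebra E F] [Algebra E F']
  [Algebra A F] [Algebra A F'] [IsScalarTower A E F] [IsScalarTower A E F']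

/-- transport of `O_F` along a morphism of `E`-algebras. -/
theorem isOLx_map {π : A} (t : E) (a : F →+* F')
    (ha_E : ∀ c : E, a (algebraMap E F c) = algebraMap E F' c) {f : F} (hf : IsOLx π t f) :
    IsOLx π t (a f) := by
  rw [isOLx_iff] at hf ⊢
  obtain ⟨s, hs, h⟩ := hf
  refine ⟨s, hs, ?_⟩
  have h1 := COmem_intX_map a (fun c => by
    rw [IsScalarTower.algebraMap_apply A E F, ha_E, ← IsScalarTower.algebraMap_apply]) (t := t)
    (by rw [ha_E]; exact intX_self t) h
  rwa [map_mul, ha_E] at h1

/-- **`hj1`, `hj2`**: an element with expansion `j(q^d)` lies in `O_{F'}`. -/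
theorem isOLx_of_expansion {π : A} (hπ : Prime π) (t : E) (Φ : F →+* LaurentSeries K)
    (Φ1 : F' →+* LaurentSeries K) (a : F →+* F')
    (ha_E : ∀ c : E, a (algebraMap E F c) = algebraMap E F' c) (haΦ : ∀ f, Φ1 (a f) = Φ f)
    (hΦA : ∀ c : A, Φ (algebraMap A F c) = HahnSeries.C (algebraMap A K c))
    (j0 : F) (hj0 : Φ j0 = J K) (hj0O : IsOLx π t j0) (d : ℕ) [NeZero d] (y : F')
    (hy : Φ1 y = V K d (J K)) : IsOLx π t y := by
  have h0 : IsOLx π t (a j0) := isOLx_map t a ha_E hj0O
  obtain ⟨P, hP, hPy⟩ := (isIntegralElem_V_of_dvd A 1 d (one_dvd d)).1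
  have h1 : V A 1 (J A) = J A := qExpand_one_apply _
  rw [h1] at hPy
  set ψ : A[X] →+* F' := ((aeval (a j0) : A[X] →ₐ[A] F') : A[X] →+* F') with hψ
  refine isOLx_of_root hπ t (P.map ψ) (hP.map ψ) (fun i => ?_) y ?_
  · rw [coeff_map]
    exact isOLx_aeval hπ t h0 _
  · apply Φ1.injective
    rw [map_zero, eval_map, hom_eval₂]
    have hcomp : Φ1.comp ψ = (coeffMap (algebraMap A K)).comp (evAt (J A)) := by
      apply Polynomial.ringHom_ext
      · intro c
        simp only [hψ, RingHom.comp_apply, RingHom.coe_coe, aeval_C, Build.evAt_C, Build.coeffMap_C]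
        rw [IsScalarTower.algebraMap_apply A E F', ← ha_E, ← IsScalarTower.algebraMap_apply, haΦ,
          hΦA]
      · simp only [hψ, RingHom.comp_apply, RingHom.coe_coe, aeval_X, Build.evAt_X,
          Build.coeffMap_J]
        rw [haΦ, hj0]
    have hy' : Φ1 y = coeffMap (algebraMap A K) (V A d (J A)) := by
      rw [hy, Build.coeffMap_V, Build.coeffMap_J]
    rw [hcomp, hy', ← hom_eval₂, hPy, map_zero]

end Expansion

end Fermat.Agent.S36.Mod.Level0
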