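import Fermat.Agent.S36.Mod.Inst.Frame
import Fermat.Agent.S36.Mod.Inst.Level0J
import Fermat.Agent.SS.GM2.RedK
import Fermat.Agent.S28.IntTower

/-!
# S36 / Mod / Inst / Level0 : the level-`N` inputs of `QData` in the concrete frame      (tasks `S36/IF-q0`, `S36/IF-n0`, `S36/IF-int`, `S36/IF-OL`)

`E = EK K xh`, `F0 = FK K N`, `x = xE K xh`; `ι = coeffMap (algebraMap A K)`, `red = coeffMap r`.

PROOFS.
* (q0) `GM.H1_of_goodCoord N l xh β n r π (E := EK K xh) (F := FK K N) (L := FK K N) (xE K xh) Φ hl hx hr hrl hπ hxt hgen hΦA hΦx hΦF hn`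
  with `Φ = (modularFunctionFieldFullC K N).val.toRingHom` (the inclusion), `Algebra (FK K N) (FK K N) = Algebra.id`;
  `hxt = transcendental_xE hx`, `hgen = hgen_xE hx`, `hΦA = coe_algebraMap_AF`, `hΦx = coe_xE`, `hΦF z = ⟨fun h => ⟨⟨z,h⟩,rfl⟩, fun ⟨f,hf⟩ => hf ▸ f.2⟩`, `hn = finrank_EF hx`
  (compare `GM.Main.core_tower`).  AVOID `rfl`/`decide`-style defeq checks on elements of `K((q))` (kernel timeouts): use `Subtype.ext`, `coe_*` lemmas.
  Its three components are `tracePerfect_x`, `q0K`, `q0K'`.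
* (n0) `GM.H2_of_goodCoord` with `L := F := FK K N`, `d = 1`, `W = 1`, `w = 1`, `W' = 1` (see `SS/GM2/GRGood.lean`, `gr_of_goodCoord_aux`, which does exactly this), `B0 = {0, β}`, `Binf = {0, β'}`;
  `G.chartIntx hπ hxt hgen H1 B hB H2`; chart `x⁻¹`: `G.tracePerfectx_inv`-lemma of `Crux/G/TwoCharts.lean` l. 269, `GM.transcendental_inv`, `GM.hgen_inv`.
  `hB`: `π ∣ β - 0 → β = 0`: `β` is a unit of `A` (`GM.exists_inv_intCast`).
* (int) `intX_iff_series`: `G.intX_iff` + apply the injective inclusion `FK K M → K((q))` to the equation (`Polynomial.hom_eval₂`); the two ring homs `A[X] → K((q))` agree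
  (`Polynomial.ringHom_ext`, `coe_algebraMap_AF`, `coe_xE`); cf. `SS.GM2.Setup.intX_iff`.  `intX_of_evAt`: `SS.GM2.isIntegralElem_evK_of_evAt`-type: apply `ι` to an equation over `A((q))`.
* (OL) `isOLx_of_isIntegralElem`: `O_F` is integrally closed: `y^d + ∑ a_i(u) y^i = 0`, `a_i ∈ A[X]`, `s • u` integral over `A[x]`, `π ∤ s`: with `D ≥ deg a_i`, `S = s^D`:
  `S y` is a root of the monic polynomial with coefficients `S^(d-i) a_i(u)`, which are integral over `A[x]` (`s^D u^j = s^(D-j) (s u)^j`); `isIntegral_trans`.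
  (Valuation-free alternative: `IsOLx` = integral over the localisation.)   `isOLx_j1`, `isOLx_j2`: `u = j(q) ∈ F_K(N)`, `IsOLx` by `q0K` (`g = J A`, `h = 1`), transported to level `M` by `dgK .. 1`;
  `j(q^c)` is integral over `A[j(q)]`: `S28.isIntegralElem_V_of_dvd A 1 c`.
-/

set_option autoImplicit false

open Polynomial ModularCurve
open scoped IntermediateField

namespace Fermat.Agent.S36.Mod.Inst

open Fermat.Agent.Crux.G
open Fermat.Agent.Crux.GM (castS GoodCoord)
open Fermat.Agent.S24 (Kb)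
open Fermat.Agent.S28 (V J evAt)
open Fermat.Agent.SS.GM2 (RedK evK)
open Fermat.Agent.S36.Norm.KForm (dgK)

attribute [local instance] algEF algAE algAF

variable {A K k : Type} [CommRing A] [IsDomain A] [IsDiscreteValuationRing A] [Field K]
  [Algebra A K] [IsFractionRing A K] [Algebra K Kb] [Field k] [PerfectField k] (r : A →+* k) {π : A}
  {xh : LaurentSeries ℤ} {N l : ℕ} [NeZero N] {β : ℤ} {n : ℕ}

/-! ### (q0)   task `S36/IF-q0` -/

/-- the inclusion `F_K(M) → K((q))`. -/
noncomputable def incF (K : Type) [Field K] (M : ℕ) [NeZero M] : FK K M →+* LaurentSeries K :=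
  (modularFunctionFieldFullC K M).val.toRingHom

omit [IsDomain A] [IsDiscreteValuationRing A] [IsFractionRing A K] [Algebra K Kb] in
theorem incF_apply {M : ℕ} [NeZero M] (f : FK K M) : incF K M f = (f : LaurentSeries K) := rfl

omit [IsDomain A] [IsDiscreteValuationRing A] [IsFractionRing A K] [Algebra K Kb] in
theorem incF_A {M : ℕ} [NeZero M] (a : A) :
    incF K M (algebraMap A (FK K M) a) = HahnSeries.C (algebraMap A K a) := by
  rw [incF_apply]; exact coe_algebraMap_AF A K M a

omit [IsDomain A] [IsDiscreteValuationRing A] [IsFractionRing A K] [Algebra K Kb] in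
theorem incF_E {M : ℕ} [NeZero M] [HasX K xh M] (c : EK K xh) :
    incF K M (algebraMap (EK K xh) (FK K M) c) = (c : LaurentSeries K) := by
  rw [incF_apply]; exact coe_algebraMap_EF K xh M c

omit [IsDomain A] [IsDiscreteValuationRing A] [IsFractionRing A K] [Algebra K Kb] in
theorem incF_x {M : ℕ} [NeZero M] [HasX K xh M] :
    incF K M (algebraMap (EK K xh) (FK K M) (xE K xh)) = castS K xh := by
  rw [incF_E, coe_xE]

omit [IsDomain A] [IsDiscreteValuationRing A] [IsFractionRing A K] [Algebra K Kb] in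
theorem incF_mem {M : ℕ} [NeZero M] (z : LaurentSeries K) :
    z ∈ modularFunctionFieldFullC K M ↔ ∃ f : FK K M, incF K M f = z :=
  ⟨fun h => ⟨⟨z, h⟩, rfl⟩, fun ⟨f, hf⟩ => hf ▸ f.2⟩

theorem H1K (hx : GoodCoord N l xh β n) [HasX K xh N] (hl : l.Prime)
    (hr : Function.Surjective r) (hrl : r l = 0) (hπ : Irreducible π) :
    TracePerfectx (FK K N) π (xE K xh) ∧
    (∀ (f : FK K N) (g h : LaurentSeries A), coeffMap r h ≠ 0 →
      incF K N f * coeffMap (algebraMap A K) h = coeffMap (algebraMap A K) g →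
      IsOLx π (xE K xh) f) ∧
    (∀ (f : FK K N) (g h : LaurentSeries A), coeffMap r h ≠ 0 → coeffMap r g = 0 →
      incF K N f * coeffMap (algebraMap A K) h = coeffMap (algebraMap A K) g →
      IsPiOLx π (xE K xh) f) := by
  haveI := finiteDimensional_EF (K := K) hx
  exact Fermat.Agent.Crux.GM.H1_of_goodCoord (L := FK K N) N l xh β n r π (xE K xh) (incF K N) hl hx
    hr hrl hπ (transcendental_xE hx) (hgen_xE hx) incF_A incF_x incF_mem (finrank_EF hx)

theorem holdsK (hx : GoodCoord N l xh β n) [HasX K xh N] (hl : l.Prime)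
    (hr : Function.Surjective r) (hrl : r l = 0) (hπ : Irreducible π) :
    Level0.Holds r π (incF K N) (xE K xh) ∧ Level0.Holds r π (incF K N) (xE K xh)⁻¹ := by
  haveI := finiteDimensional_EF (K := K) hx
  haveI : CharZero K := (algebraMap K Kb).charZero
  haveI := charZero_EK K xh
  exact Level0.holds N l xh β n r π (xE K xh) (incF K N) hl hx
    hr hrl hπ (transcendental_xE hx) (hgen_xE hx) incF_A incF_x incF_mem (finrank_EF hx)

theorem tracePerfect_x (hx : GoodCoord N l xh β n) [HasX K xh N] (hl : l.Prime)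
    (hr : Function.Surjective r) (hrl : r l = 0) (hπ : Irreducible π) :
    TracePerfectx (FK K N) π (xE K xh) :=
  (H1K r hx hl hr hrl hπ).1

theorem q0K (hx : GoodCoord N l xh β n) [HasX K xh N] (hl : l.Prime)
    (hr : Function.Surjective r) (hrl : r l = 0) (hπ : Irreducible π)
    (f : FK K N) (g h : LaurentSeries A) (hh : coeffMap r h ≠ 0)
    (hf : (f : LaurentSeries K) * coeffMap (algebraMap A K) h = coeffMap (algebraMap A K) g) :
    IsOLx π (xE K xh) f :=
  (H1K r hx hl hr hrl hπ).2.1 f g h hh hf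

theorem q0K' (hx : GoodCoord N l xh β n) [HasX K xh N] (hl : l.Prime)
    (hr : Function.Surjective r) (hrl : r l = 0) (hπ : Irreducible π)
    (f : FK K N) (g h : LaurentSeries A) (hh : coeffMap r h ≠ 0) (hg : coeffMap r g = 0)
    (hf : (f : LaurentSeries K) * coeffMap (algebraMap A K) h = coeffMap (algebraMap A K) g) :
    IsPiOLx π (xE K xh) f :=
  (H1K r hx hl hr hrl hπ).2.2 f g h hh hg hf

/-! ### (n0)   task `S36/IF-n0` -/

theorem n0K (hx : GoodCoord N l xh β n) [HasX K xh N] (hl : l.Prime)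
    (hr : Function.Surjective r) (hrl : r l = 0) (hπ : Irreducible π)
    (e : FK K N) (he : IsOLx π (xE K xh) e) (P : A[X][X]) (hP : P.Monic)
    (hPe : IsPiOLx π (xE K xh) (P.eval₂ ((algebraMap (EK K xh) (FK K N)).comp
      ((aeval (xE K xh) : A[X] →ₐ[A] EK K xh) : A[X] →+* EK K xh)) e)) :
    ∃ a : FK K N, IntX A (xE K xh) a ∧ IsPiOLx π (xE K xh) (a - e) :=
  (holdsK r hx hl hr hrl hπ).1.2.2 e he P hP hPe

theorem n0K_inv (hx : GoodCoord N l xh β n) [HasX K xh N] (hl : l.Prime)
    (hr : Function.Surjective r) (hrl : r l = 0) (hπ : Irreducible π)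
    (e : FK K N) (he : IsOLx π (xE K xh)⁻¹ e) (P : A[X][X]) (hP : P.Monic)
    (hPe : IsPiOLx π (xE K xh)⁻¹ (P.eval₂ ((algebraMap (EK K xh) (FK K N)).comp
      ((aeval (xE K xh)⁻¹ : A[X] →ₐ[A] EK K xh) : A[X] →+* EK K xh)) e)) :
    ∃ a : FK K N, IntX A (xE K xh)⁻¹ a ∧ IsPiOLx π (xE K xh)⁻¹ (a - e) :=
  (holdsK r hx hl hr hrl hπ).2.2.2 e he P hP hPe

/-! ### (int)   task `S36/IF-int` -/

omit [IsDomain A] [IsDiscreteValuationRing A] [IsFractionRing A K] [Algebra K Kb] in
/-- integrality over `A[t]`, `t : E`, in terms of `q`-expansions. -/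
theorem intX_iff_series {M : ℕ} [NeZero M] [HasX K xh M] (t : EK K xh) (y : FK K M) :
    IntX A t y ↔ (evK A (t : LaurentSeries K)).IsIntegralElem (y : LaurentSeries K) := by
  have key : (incF K M).comp ((algebraMap (EK K xh) (FK K M)).comp
      ((aeval t : A[X] →ₐ[A] EK K xh) : A[X] →+* EK K xh)) = evK A (t : LaurentSeries K) := by
    apply Polynomial.ringHom_ext
    · intro a
      simp only [RingHom.comp_apply, RingHom.coe_coe, aeval_C, evK, coe_eval₂RingHom, eval₂_C]
      rw [← IsScalarTower.algebraMap_apply, incF_A]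
    · simp only [RingHom.comp_apply, RingHom.coe_coe, aeval_X, evK, coe_eval₂RingHom, eval₂_X]
      rw [incF_E]
  rw [intX_iff]
  constructor
  · rintro ⟨p, hp, h⟩
    refine ⟨p, hp, ?_⟩
    have h1 := congrArg (incF K M) h
    rw [hom_eval₂, key, map_zero] at h1
    exact h1
  · rintro ⟨p, hp, h⟩
    refine ⟨p, hp, ?_⟩
    apply (incF K M).injective
    rw [hom_eval₂, key, map_zero]
    exact h

omit [IsDomain A] [IsDiscreteValuationRing A] [IsFractionRing A K] [Algebra K Kb] in
/-- from an equation over `A((q))`. -/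
theorem intX_of_evAt {M : ℕ} [NeZero M] [HasX K xh M] (t : EK K xh) (y : FK K M)
    (T Y : LaurentSeries A) (hT : (t : LaurentSeries K) = coeffMap (algebraMap A K) T)
    (hY : (y : LaurentSeries K) = coeffMap (algebraMap A K) Y) (h : (evAt T).IsIntegralElem Y) :
    IntX A t y := by
  rw [intX_iff_series]
  obtain ⟨P, hP, hPY⟩ := h
  refine ⟨P, hP, ?_⟩
  have key : evK A (coeffMap (algebraMap A K) T) = (coeffMap (algebraMap A K)).comp (evAt T) := by
    apply Polynomial.ringHom_ext
    · intro a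
      simp [evK]
    · simp [evK]
  rw [hT, hY, key, ← hom_eval₂, hPY, map_zero]

/-! ### (OL)   task `S36/IF-OL` -/

omit [IsFractionRing A K] [Algebra K Kb] in
/-- `O_F` is integrally closed. -/
theorem isOLx_of_isIntegralElem {M : ℕ} [NeZero M] [HasX K xh M] (hπ : Irreducible π)
    (t : EK K xh) (u y : FK K M) (hu : IsOLx π t u)
    (h : (evK A (u : LaurentSeries K)).IsIntegralElem (y : LaurentSeries K)) : IsOLx π t y := by
  obtain ⟨P, hP, hPy⟩ := h
  set ψ : A[X] →+* FK K M := ((aeval u : A[X] →ₐ[A] FK K M) : A[X] →+* FK K M) with hψ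
  have key : (incF K M).comp ψ = evK A (u : LaurentSeries K) := by
    apply Polynomial.ringHom_ext
    · intro a
      simp only [hψ, RingHom.comp_apply, RingHom.coe_coe, aeval_C, evK, coe_eval₂RingHom, eval₂_C]
      rw [incF_A]
    · simp only [hψ, RingHom.comp_apply, RingHom.coe_coe, aeval_X, evK, coe_eval₂RingHom, eval₂_X]
      rfl
  refine Level0.isOLx_of_root hπ.prime t (P.map ψ) (hP.map ψ) (fun i => ?_) y ?_
  · rw [coeff_map]
    exact Level0.isOLx_aeval hπ.prime t hu _
  · apply (incF K M).injective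
    rw [map_zero, eval_map, hom_eval₂, key]
    exact hPy

/-- `j(q^c) ∈ O_F` at every level `M` with `N ∣ M`, `c ∣ M`. -/
theorem isOLx_jc (hx : GoodCoord N l xh β n) [HasX K xh N] (hl : l.Prime)
    (hr : Function.Surjective r) (hrl : r l = 0) (hπ : Irreducible π)
    {M : ℕ} [NeZero M] (hNM : 1 * N ∣ M) [HasX K xh M] (c : ℕ) [NeZero c] (y : FK K M)
    (hy : (y : LaurentSeries K) = V K c (J K)) : IsOLx π (xE K xh) y := by
  set j0 : FK K N := Fermat.Agent.S36.Norm.KForm.jKd K N 1 (one_dvd N) with hj0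
  have hj0c : incF K N j0 = J K := by
    rw [incF_apply]
    exact qExpand_one_apply _
  have hj0O : IsOLx π (xE K xh) j0 := by
    refine q0K r hx hl hr hrl hπ j0 (J A) 1 (by rw [map_one]; exact one_ne_zero) ?_
    rw [map_one, mul_one, Fermat.Agent.S28.Build.coeffMap_J]
    exact hj0c
  exact Level0.isOLx_of_expansion hπ.prime (xE K xh) (incF K N) (incF K M)
    (dgK K N M 1 hNM).toRingHom (fun e => dgK_algebraMap_EF K xh hNM e)
    (fun f => by
      rw [incF_apply, incF_apply]
      exact (Fermat.Agent.S36.Norm.KForm.coe_dgK K N M 1 hNM f).trans (qExpand_one_apply _))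
    incF_A j0 hj0c hj0O c y hy

end Fermat.Agent.S36.Mod.Inst
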