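import Fermat.Agent.Crux.GM.Core
import Fermat.Agent.Crux.G.ChartInt
import Fermat.Agent.Crux.G.QLink

/-!
# S36 / Mod / Inst / Level0 : the level-`N` fields `q0`, `q0'`, `n0` of `QData`, both charts, abstract frame

Frame = the instance list of `GM.H1_of_goodCoord` with `L := F`:  `E = K(x) ⊆ F`, `Φ : F → K((q))`, `Φ x = castS K xh`,
`Φ(F) = modularFunctionFieldFullC K M`, `[F : E] = n`, `GoodCoord M ℓ xh β n`.
-/

set_option autoImplicit false
set_option linter.unusedSectionVars false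

open Polynomial ModularCurve AlgebraicCurve

namespace Fermat.Agent.S36.Mod.Level0

open Fermat.Agent.Crux.G Fermat.Agent.Crux.G.QLink Fermat.Agent.Crux.GM Fermat.Agent.S28
open Fermat.Agent.S24 (Kb FN)

variable (M : ℕ) [NeZero M] (ℓ : ℕ) (xh : LaurentSeries ℤ) (β : ℤ) (n : ℕ)
variable {A K k : Type} [CommRing A] [IsDomain A] [IsDiscreteValuationRing A] [Field K]
  [Algebra A K] [IsFractionRing A K] [Algebra K Kb] [Field k] (r : A →+* k) (π : A)
variable {E F : Type} [Field E] [Field F] [Algebra A E] [Algebra E F] [Algebra A F]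
  [IsScalarTower A E F]
variable (x : E) (Φ : F →+* LaurentSeries K)

/-- the three level-`0` statements for the chart `t`. -/
def Holds (r : A →+* k) (π : A) (Φ : F →+* LaurentSeries K) (t : E) : Prop :=
  (∀ f : F, InV (coeffMap ((algebraMap K Kb).comp (algebraMap A K))) (coeffMap r)
      (coeffMap (algebraMap K Kb) (Φ f)) → IsOLx π t f) ∧
  (∀ f : F, InM (coeffMap ((algebraMap K Kb).comp (algebraMap A K))) (coeffMap r)
      (coeffMap (algebraMap K Kb) (Φ f)) → IsPiOLx π t f) ∧
  (∀ e : F, IsOLx π t e → ∀ P : A[X][X], P.Monic →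
    IsPiOLx π t (P.eval₂ ((algebraMap E F).comp ((aeval t : A[X] →ₐ[A] E) : A[X] →+* E)) e) →
    ∃ a : F, IntX A t a ∧ IsPiOLx π t (a - e))

theorem descend_eq (f : F) (g h : LaurentSeries A)
    (H : coeffMap (algebraMap K Kb) (Φ f) *
      coeffMap ((algebraMap K Kb).comp (algebraMap A K)) h =
      coeffMap ((algebraMap K Kb).comp (algebraMap A K)) g) :
    Φ f * coeffMap (algebraMap A K) h = coeffMap (algebraMap A K) g := by
  apply Build.coeffMap_injective (algebraMap K Kb) (algebraMap K Kb).injective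
  rw [map_mul, coeffMap_coeffMap, coeffMap_coeffMap]
  exact H

/-- **Level 0**, both charts. -/
theorem holds [PerfectField k] [CharZero E] [FiniteDimensional E F] (hℓ : ℓ.Prime)
    (hx : GoodCoord M ℓ xh β n)
    (hr : Function.Surjective r) (hrℓ : r ℓ = 0) (hπ : Irreducible π)
    (hxt : Transcendental A x)
    (hgen : ∀ c : E, ∃ p q : A[X], q ≠ 0 ∧ c * aeval x q = aeval x p)
    (hΦA : ∀ a : A, Φ (algebraMap A F a) = HahnSeries.C (algebraMap A K a))
    (hΦx : Φ (algebraMap E F x) = castS K xh)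
    (hΦF : ∀ z : LaurentSeries K, z ∈ modularFunctionFieldFullC K M ↔ ∃ f : F, Φ f = z)
    (hn : Module.finrank E F = n) :
    Holds r π Φ x ∧ Holds r π Φ x⁻¹ := by
  classical
  have hx0 : x ≠ 0 := by
    rintro rfl
    exact hxt isAlgebraic_zero
  obtain ⟨H1, hQ1, hQ2⟩ := H1_of_goodCoord (L := F) M ℓ xh β n r π x Φ hℓ hx hr hrℓ hπ hxt hgen hΦA
    hΦx hΦF hn
  obtain ⟨hrβ, β', hβ'⟩ := exists_inv_intCast ℓ β r hℓ hr hrℓ hx.hβ
  have hrπ := map_irreducible_eq_zero r π hr hπ
  have hli : LinearIndependent F (fun j : Fin 1 => (1 : F) ^ (j : ℕ)) := by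
    simp only [one_pow]
    exact LinearIndependent.of_subsingleton (0 : Fin 1) one_ne_zero
  obtain ⟨H2, H2'⟩ := H2_of_goodCoord (L := F) M ℓ xh β n π x Φ hx hπ hxt hgen hΦA hΦx hΦF hn 1
    one_pos 1 one_ne_zero 1 (by simp) (Module.finrank_self F) hli 1 (by simp)
    (fun P => one_dvd _) β' hβ' {0, (β : A)} {0, β'} (by simp) (by simp) (by simp) (by simp)
  have hndvd : ∀ a : A, r a ≠ 0 → ¬ π ∣ a := by
    rintro a ha ⟨b, rfl⟩
    rw [map_mul, hrπ, zero_mul] at ha
    exact ha rfl
  have hrβ' : r β' ≠ 0 := by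
    intro h
    have := congrArg r hβ'
    rw [map_mul, h, zero_mul, map_one] at this
    exact zero_ne_one this
  have hB0 : ∀ a ∈ ({0, (β : A)} : Finset A), ∀ b ∈ ({0, (β : A)} : Finset A), π ∣ a - b → a = b := by
    intro a ha b hb hab
    simp only [Finset.mem_insert, Finset.mem_singleton] at ha hb
    rcases ha with rfl | rfl <;> rcases hb with rfl | rfl
    · rfl
    · exact absurd ((dvd_neg).mp (by simpa using hab)) (hndvd _ hrβ)
    · exact absurd (by simpa using hab) (hndvd _ hrβ)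
    · rfl
  have hBinf : ∀ a ∈ ({0, β'} : Finset A), ∀ b ∈ ({0, β'} : Finset A), π ∣ a - b → a = b := by
    intro a ha b hb hab
    simp only [Finset.mem_insert, Finset.mem_singleton] at ha hb
    rcases ha with rfl | rfl <;> rcases hb with rfl | rfl
    · rfl
    · exact absurd ((dvd_neg).mp (by simpa using hab)) (hndvd _ hrβ')
    · exact absurd (by simpa using hab) (hndvd _ hrβ')
    · rfl
  have q0 : ∀ f : F, InV (coeffMap ((algebraMap K Kb).comp (algebraMap A K))) (coeffMap r)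
      (coeffMap (algebraMap K Kb) (Φ f)) → IsOLx π x f := by
    rintro f ⟨g, h, hh, H⟩
    exact hQ1 f g h hh (descend_eq Φ f g h H)
  have q0' : ∀ f : F, InM (coeffMap ((algebraMap K Kb).comp (algebraMap A K))) (coeffMap r)
      (coeffMap (algebraMap K Kb) (Φ f)) → IsPiOLx π x f := by
    rintro f ⟨g, h, hh, hg, H⟩
    exact hQ2 f g h hh hg (descend_eq Φ f g h H)
  refine ⟨⟨q0, q0', ?_⟩, ⟨fun f hf => (isOLx_inv_iff hπ.prime hx0 f).mpr (q0 f hf),
    fun f hf => (isPiOLx_inv_iff hπ.prime hx0 f).mpr (q0' f hf), ?_⟩⟩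
  · intro e he P hP hPe
    exact chartIntx hπ hxt hgen H1 _ hB0 H2 e he P hP hPe
  · intro e he P hP hPe
    exact chartIntx hπ (transcendental_inv hxt) (hgen_inv hxt hgen)
      (tracePerfectx_inv hπ.prime hx0 H1) _ hBinf H2' e he P hP hPe

end Fermat.Agent.S36.Mod.Level0
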