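import Fermat.Agent.S36.Val.Inst.Setup
import Fermat.Agent.S36.Val.Disc
import Fermat.Agent.S36.Val.DiscTw
import Fermat.Agent.Crux.GM.Core

/-!
# S36 / Mod / Inst / XInst : the instance of `Val.Setup.XData` for `IData.setup`

`f0 ∈ F_K(N)` with `A0`-integral expansion `Xs` whose reduction has order prime to `l` (`f0 = x` or `x⁻¹`).
`xdata D f0 Xs hf hord : D.setup.XData` with `x1 = b0 f0 = f0(q^l)`, `X = Xs`.
-/

set_option autoImplicit false
set_option linter.unusedSectionVars false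

open ModularCurve Polynomial

namespace Fermat.Agent.S36.Mod.Inst

open Fermat.Agent.ES Fermat.Agent.S24 Fermat.Agent.Crux.GT.PF
open Fermat.Agent.S36.Val Fermat.Agent.S36.Val.Inst Fermat.Agent.S36.Norm
open Fermat.Agent.S36.Norm.KForm

noncomputable section

variable {N l : ℕ} [NeZero N] [NeZero l] {A0 K k : Type} [CommRing A0] [IsDomain A0]
    [IsDiscreteValuationRing A0] [Field K] [Algebra A0 K] [IsFractionRing A0 K] [Algebra K Kb]
    [Field k] (D : IData N l A0 K k)

theorem XInst_Φ' (f0 : FK K N) (Xs : LaurentSeries A0)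
    (hf : (f0 : LaurentSeries K) = coeffMap (algebraMap A0 K) Xs) :
    IData.Φ' f0 = IData.inc (A0 := A0) (K := K) Xs := by
  show coeffMap (algebraMap K Kb) (f0 : LaurentSeries K) = coeffMap (IData.φ0 A0 K) Xs
  rw [hf, coeffMap_coeffMap]
  rfl

theorem XInst_inc (Xs : LaurentSeries A0) :
    IData.inc (A0 := A0) (K := K) Xs = coeffMap D.B.subtype (coeffMap D.ψ Xs) := by
  show coeffMap (IData.φ0 A0 K) Xs = _
  rw [coeffMap_coeffMap]
  exact coeffMap_congr (RingHom.ext fun a => (D.hψ a).symm) Xs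

theorem XInst_red (Xs : LaurentSeries A0) :
    coeffMap D.r1 (coeffMap D.ψ Xs) = coeffMap D.r Xs := by
  rw [coeffMap_coeffMap]
  exact coeffMap_congr (RingHom.ext fun a => D.hr1ψ a) Xs

theorem XInst_lift_pow (ζ : Mu l) : (D.lift ζ : D.B) ^ l = 1 := by
  apply Subtype.val_injective
  have h1 : (((ζ : Qbˣ) : Qb)) ^ l = 1 := by
    have := ζ.2
    rw [mem_rootsOfUnity] at this
    have h2 := congrArg Units.val this
    rwa [Units.val_pow_eq_pow_val, Units.val_one] at h2
  show (((D.lift ζ : D.B) ^ l : D.B) : Kb) = ((1 : D.B) : Kb)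
  rw [SubmonoidClass.coe_pow, D.coe_lift, h1]
  rfl

theorem XInst_tw_sub (Xs : LaurentSeries A0) (hord : (((coeffMap D.r Xs).order : ℤ) : k) ≠ 0)
    (ζ ζ' : Mu l) (hne : ζ ≠ ζ') :
    IsOrd D.inc1 D.red1 D.lam 1
      (twist (ζ : Qbˣ) (IData.inc (A0 := A0) (K := K) Xs)
        - twist (ζ' : Qbˣ) (IData.inc (A0 := A0) (K := K) Xs)) := by
  have := D.dvr
  have hz : IsPrimitiveRoot (D.zz : D.B) l :=
    IsPrimitiveRoot.of_map_of_injective (f := D.B.subtype) D.hzz Subtype.val_injective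
  have hne' : (D.lift ζ : D.B) ≠ D.lift ζ' := by
    intro h
    apply hne
    apply Subtype.ext
    apply Units.ext
    rw [← D.coe_lift, ← D.coe_lift, h]
  have hass := associated_sub_of_primitiveRoot D.hl hz (XInst_lift_pow D ζ) (XInst_lift_pow D ζ')
    hne'
  have hX0 : coeffMap D.r Xs ≠ 0 := by
    intro h0
    rw [h0, HahnSeries.order_zero] at hord
    simp at hord
  have hg := theta_ne_zero_of_order D.r1 (coeffMap D.ψ Xs) (by rw [XInst_red]; exact hX0)
    (by rw [XInst_red]; exact hord)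
  have := isOrd_twist_sub D.B.subtype D.r1 Subtype.val_injective D.hr1 D.hlam (D.lift ζ)
    (D.lift ζ') (D.r1_lift ζ) (D.r1_lift ζ') hass (coeffMap D.ψ Xs) hg
  rw [D.map_lift, D.map_lift, ← XInst_inc] at this
  exact this

/-- **the instance of `XData`.** -/
def xdata (f0 : FK K N) (Xs : LaurentSeries A0)
    (hf : (f0 : LaurentSeries K) = coeffMap (algebraMap A0 K) Xs)
    (hord : (((coeffMap D.r Xs).order : ℤ) : k) ≠ 0) : D.setup.XData where
  x1 := IData.b0 f0
  X := Xs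
  Ψinf_x1 := by
    show IData.Ψinf (IData.b0 f0) = IData.inc (A0 := A0) (K := K) (qExpand A0 l Xs)
    rw [IData.Ψinf_b0, XInst_Φ' f0 Xs hf]
    exact (coeffMap_qExpand _ _ _).symm
  Ψ0_x1 := by
    show D.Ψ0 (IData.b0 f0) = IData.inc (A0 := A0) (K := K) Xs
    rw [D.Ψ0_b0, XInst_Φ' f0 Xs hf]
  tw_V := fun ζ a => by
    show twist (ζ : Qbˣ) (qExpand Qb l a) = qExpand Qb l a
    exact twist_V l _ ((mem_rootsOfUnity _ _).mp ζ.2) a
  ζ_inj := Subtype.val_injective
  tw_sub := fun ζ ζ' hne => XInst_tw_sub D Xs hord ζ ζ' hne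
  VV_ne := by
    show qExpand k l (qExpand k l (coeffMap D.r Xs)) ≠ coeffMap D.r Xs
    refine VV_ne_of_order l D.hl.two_le _ ?_
    intro h0
    rw [h0] at hord
    simp at hord
  fin0 := finHom_dgK K N (N * l) 1 (IData.dvd1 N l)
  deg0 := degHom_dgK_0 K D.hl D.hN 1 (IData.dvd1 N l)
  finA := finHom_dgK K (N * l) (N * l * l) 1 (IData.dvd1 (N * l) l)
  degA := degHom_dgK_A K D.hl (IData.dvd1 (N * l) l)

@[simp] theorem xdata_x1 (f0 : FK K N) (Xs : LaurentSeries A0)
    (hf : (f0 : LaurentSeries K) = coeffMap (algebraMap A0 K) Xs)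
    (hord : (((coeffMap D.r Xs).order : ℤ) : k) ≠ 0) :
    (xdata D f0 Xs hf hord).x1 = IData.b0 f0 := rfl

/-- the hypothesis `hord` for `Xs = castS A0 xh`. -/
theorem hord_castS (xh : LaurentSeries ℤ) (hlead : xh.leadingCoeff = 1)
    (hnd : ¬ (l : ℤ) ∣ xh.order) :
    (((coeffMap D.r (Fermat.Agent.Crux.GM.castS A0 xh)).order : ℤ) : k) ≠ 0 := by
  have := D.charP_k
  rw [Fermat.Agent.Crux.GM.coeffMap_castS, Fermat.Agent.Crux.GM.order_castS xh hlead]
  intro h0
  exact hnd ((CharP.intCast_eq_zero_iff k l _).mp h0)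

/-- the hypothesis `hord` for the inverse of `castS A0 xh`. -/
theorem hord_inv (xh : LaurentSeries ℤ) (hlead : xh.leadingCoeff = 1)
    (hnd : ¬ (l : ℤ) ∣ xh.order) (y : LaurentSeries A0)
    (hy : Fermat.Agent.Crux.GM.castS A0 xh * y = 1) :
    (((coeffMap D.r y).order : ℤ) : k) ≠ 0 := by
  have := D.charP_k
  have h1 : Fermat.Agent.Crux.GM.castS k xh * coeffMap D.r y = 1 := by
    rw [← Fermat.Agent.Crux.GM.coeffMap_castS D.r xh, ← map_mul, hy, map_one]
  have ha : Fermat.Agent.Crux.GM.castS k xh ≠ 0 := left_ne_zero_of_mul_eq_one h1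
  have hb : coeffMap D.r y ≠ 0 := right_ne_zero_of_mul_eq_one h1
  have h2 := HahnSeries.order_mul ha hb
  rw [h1, HahnSeries.order_one, Fermat.Agent.Crux.GM.order_castS xh hlead] at h2
  have h3 : (coeffMap D.r y).order = -xh.order := by omega
  rw [h3]
  intro h0
  apply hnd
  have := (CharP.intCast_eq_zero_iff k l _).mp h0
  rwa [dvd_neg] at this

end

end Fermat.Agent.S36.Mod.Inst
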